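/-
P-S56, block (A) LOCAL FLAT, the `p = 3` block, arithmetic leaf 2 (owner: helper94).

(F1) THE INERTIA FIELD IS UNRAMIFIED (global form).  `Qbar = AlgebraicClosure ℚ`, `P` a valuation
subring of `Qbar` over the prime `p`, `I = P.inertiaSubgroupIn ℚ`.  If `c ∈ 𝔪_P` is fixed by `I`
then `c / p ∈ P`.
-/
import Mathlib
import Fermat.Prelude.Def_GaloisRep_Flat
import Fermat.Agent.Lib.CFT.Profinite.BridgeRamification
import Fermat.Agent.S56x.Hens.FiniteLevel
import Fermat.Agent.S56x.Flat.InertiaLift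

set_option autoImplicit false
set_option linter.unusedVariables false
set_option linter.unusedSectionVars false
set_option linter.style.haveILetI false

open NumberField
open scoped Pointwise

noncomputable section

namespace Fermat.Agent.S56x.Flat.InertiaField

open Fermat.Agent.Lib Fermat.Agent.Lib.CFT.Profinite.Bridge Fermat.Agent.S56x.Hens
  Fermat.Agent.S56x.Flat.InertiaLift

local notation "Qbar" => AlgebraicClosure ℚ
local notation "Γℚ" => (AlgebraicClosure ℚ ≃ₐ[ℚ] AlgebraicClosure ℚ)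

local instance isAlgebraicQbar_if : Algebra.IsAlgebraic ℚ (AlgebraicClosure ℚ) :=
  AlgebraicClosure.isAlgebraic ℚ
local instance isAlgClosureQbar_if : IsAlgClosure ℚ (AlgebraicClosure ℚ) :=
  ⟨inferInstance, inferInstance⟩
local instance normalQbar_if : Normal ℚ (AlgebraicClosure ℚ) :=
  IsAlgClosure.normal ℚ (AlgebraicClosure ℚ)
local instance isGaloisQbar_if : IsGalois ℚ (AlgebraicClosure ℚ) := ⟨⟩

/-- Dedekind step: if `p ∈ 𝔭 ∖ 𝔭²` then there is `u ∉ 𝔭` with `u · 𝔭 ⊆ (p)`. -/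
theorem exists_notMem_mul_mem_span {R : Type*} [CommRing R] [IsDedekindDomain R]
    (𝔭 : Ideal R) [h𝔭 : 𝔭.IsPrime] (x : R) (hx : x ∈ 𝔭) (hx2 : x ∉ 𝔭 ^ 2) :
    ∃ u : R, u ∉ 𝔭 ∧ ∀ a ∈ 𝔭, ∃ w : R, a * u = x * w := by
  have hle : Ideal.span {x} ≤ 𝔭 := (Ideal.span_singleton_le_iff_mem 𝔭).mpr hx
  obtain ⟨Q, hQ⟩ := Ideal.dvd_iff_le.mpr hle
  have hQ𝔭 : ¬ Q ≤ 𝔭 := by
    intro h
    apply hx2
    have h1 : Ideal.span {x} ≤ 𝔭 ^ 2 := by
      rw [hQ, pow_two]
      exact Ideal.mul_mono_right h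
    exact h1 (Ideal.mem_span_singleton_self x)
  obtain ⟨u, huQ, hu𝔭⟩ := Set.not_subset.mp hQ𝔭
  refine ⟨u, hu𝔭, fun a ha => ?_⟩
  have h1 : a * u ∈ Ideal.span {x} := by
    rw [hQ]
    exact Ideal.mul_mem_mul ha huQ
  obtain ⟨w, hw⟩ := Ideal.mem_span_singleton'.mp h1
  exact ⟨w, by rw [← hw, mul_comm]⟩

/-- **(F1), global form.**  An element of the maximal ideal of `P` fixed by the inertia subgroup
of `P` is divisible by `p` in `P`. -/
theorem div_mem_of_fixed (P : ValuationSubring Qbar) {p : ℕ} (hp : p.Prime)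
    (hP : P.LiesOverPrime p) (c : Qbar) (hc : c ∈ P.nonunits)
    (hfix : ∀ t ∈ P.inertiaSubgroupIn ℚ, t c = c) :
    ∃ d ∈ P, c = (p : Qbar) * d := by
  classical
  have hpP : ((p : ℕ) : Qbar) ∈ P.nonunits := hP
  -- the fields
  let K : IntermediateField ℚ Qbar := IntermediateField.adjoin ℚ {c}
  have hKfd : FiniteDimensional ℚ K :=
    IntermediateField.adjoin.finiteDimensional (Algebra.IsIntegral.isIntegral c)
  let M : IntermediateField ℚ Qbar := IntermediateField.normalClosure ℚ K Qbar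
  have hKM : K ≤ M := K.le_normalClosure
  have hMgal : IsGalois ℚ M := isGalois_normalClosure K
  have hMfd : FiniteDimensional ℚ M := inferInstance
  let _ := algebraOfLE hKM
  let Pt : Ideal (𝓞 M) := primeBelow P M
  have hpPt : (p : 𝓞 M) ∈ Pt := natCast_mem_primeBelow hP M
  have hPt0 : Pt ≠ ⊥ := by
    intro h0
    rw [h0, Ideal.mem_bot] at hpPt
    exact (Nat.cast_ne_zero.mpr hp.ne_zero : (p : 𝓞 M) ≠ 0) hpPt
  -- every element of `K` is fixed by inertia
  have hfixK : ∀ t ∈ P.inertiaSubgroupIn ℚ, ∀ x : K, t (x : Qbar) = (x : Qbar) := by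
    intro t ht x
    have hle : K ≤ IntermediateField.fixedField (Subgroup.zpowers t) := by
      rw [IntermediateField.adjoin_le_iff]
      rintro y hy
      rw [Set.mem_singleton_iff] at hy
      subst hy
      rintro ⟨g, hg⟩
      obtain ⟨n, rfl⟩ := Subgroup.mem_zpowers_iff.mp hg
      show (t ^ n) y = y
      have h1 : ∀ s : Γℚ, s y = y → s⁻¹ y = y := by
        intro s hs
        conv_lhs => rw [← hs]
        exact s.symm_apply_apply y
      have h2 : ∀ k : ℕ, (t ^ k) y = y := by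
        intro k
        induction k with
        | zero => rfl
        | succ k ih => rw [pow_succ, AlgEquiv.mul_apply, hfix t ht, ih]
      rcases Int.eq_nat_or_neg n with ⟨k, rfl | rfl⟩
      · rw [zpow_natCast]; exact h2 k
      · rw [zpow_neg, zpow_natCast]; exact h1 _ (h2 k)
    exact hle x.2 ⟨t, Subgroup.mem_zpowers t⟩
  -- the inertia group of `Pt` fixes `K`
  have hin : ∀ σ ∈ Ideal.inertia Gal(M/ℚ) Pt, ∀ x : K,
      σ (algebraMap K M x) = algebraMap K M x := by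
    intro σ hσ x
    obtain ⟨s, hs, hsσ⟩ := exists_inertia_lift_of_place M P hp hpP Pt inferInstance
      (fun y => (mem_primeBelow_iff P M y).symm) σ hσ
    apply (algebraMap M Qbar).injective
    rw [← hsσ]
    have h1 : algebraMap M Qbar ((AlgEquiv.restrictNormalHom M s) (algebraMap K M x)) =
        s (algebraMap M Qbar (algebraMap K M x)) :=
      AlgEquiv.restrictNormal_commutes s M _
    rw [h1]
    exact hfixK s hs x
  have hram : (Pt.under (𝓞 K)).ramificationIdx ℤ = 1 :=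
    (ramificationIdx_under_eq_one_iff K M Pt hPt0).mpr hin
  set 𝔭 : Ideal (𝓞 K) := Pt.under (𝓞 K) with h𝔭def
  have h𝔭mem : ∀ x : 𝓞 K, x ∈ 𝔭 ↔ ((x : K) : Qbar) ∈ P.nonunits := by
    intro x
    rw [h𝔭def, Ideal.under_def, Ideal.mem_comap, mem_primeBelow_iff]
    rfl
  have hp𝔭 : (p : 𝓞 K) ∈ 𝔭 := by
    rw [h𝔭mem]
    simpa using hpP
  have hnsq : (p : 𝓞 K) ∉ 𝔭 ^ 2 :=
    (ramificationIdx_int_eq_one_iff_not_mem_sq 𝔭 hp hp𝔭).mp hram
  obtain ⟨u, hu𝔭, hu⟩ := exists_notMem_mul_mem_span 𝔭 (p : 𝓞 K) hp𝔭 hnsq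
  -- write `c = a / s`
  have hcK : c ∈ K := IntermediateField.mem_adjoin_simple_self ℚ c
  let cK : K := ⟨c, hcK⟩
  have hcKb : cK ∈ below P K := P.nonunits_subset hc
  have hcalg : IsAlgebraic ℤ cK :=
    (IsFractionRing.isAlgebraic_iff ℤ ℚ K).mpr (Algebra.IsAlgebraic.isAlgebraic cK)
  have : CharZero K := algebraRat.charZero K
  obtain ⟨s, hsint, hsn, hscint⟩ :=
    exists_integral_mul (below P K) hp (below_liesOverPrime P K hP) hcKb hcalg
  let a : 𝓞 K := ⟨s * cK, hscint⟩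
  have hsP : (s : Qbar) ∈ P :=
    mem_valuationSubring_of_isIntegral P (hsint.map (algebraMap K Qbar).toIntAlgHom)
  have ha𝔭 : a ∈ 𝔭 := by
    rw [h𝔭mem]
    show ((s * cK : K) : Qbar) ∈ P.nonunits
    have : ((s * cK : K) : Qbar) = c * (s : Qbar) := by
      show (s : Qbar) * c = c * (s : Qbar)
      exact mul_comm _ _
    rw [this]
    exact mul_mem_nonunits_of_mem P hc hsP
  obtain ⟨w, hw⟩ := hu a ha𝔭
  -- in `Qbar`: `s * c * u = p * w`
  have hw' : (s : Qbar) * c * ((u : K) : Qbar) = (p : Qbar) * ((w : K) : Qbar) := by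
    have h1 : (((a * u : 𝓞 K) : K) : Qbar) = ((((p : 𝓞 K) * w : 𝓞 K) : K) : Qbar) := by rw [hw]
    have h2 : (((a * u : 𝓞 K) : K) : Qbar) = (s : Qbar) * c * ((u : K) : Qbar) := rfl
    have h3 : ((((p : 𝓞 K) * w : 𝓞 K) : K) : Qbar) = (p : Qbar) * ((w : K) : Qbar) := by
      simp
    rw [← h2, h1, h3]
  have huP : ((u : K) : Qbar) ∈ P :=
    mem_valuationSubring_of_isIntegral P
      ((RingOfIntegers.isIntegral_coe u).map (algebraMap K Qbar).toIntAlgHom)
  have hwP : ((w : K) : Qbar) ∈ P :=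
    mem_valuationSubring_of_isIntegral P
      ((RingOfIntegers.isIntegral_coe w).map (algebraMap K Qbar).toIntAlgHom)
  have hun : ((u : K) : Qbar) ∉ P.nonunits := fun h => hu𝔭 ((h𝔭mem u).mpr h)
  have hsn' : (s : Qbar) ∉ P.nonunits := fun h => hsn ((mem_below_nonunits P K).mpr h)
  -- units of `P`
  have hunit : ∀ z : Qbar, z ∈ P → z ∉ P.nonunits → z ≠ 0 ∧ z⁻¹ ∈ P := by
    intro z hz hzn
    have hz0 : z ≠ 0 := by
      rintro rfl
      exact hzn P.nonunits.zero_mem
    refine ⟨hz0, ?_⟩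
    by_contra hinv
    exact hzn ((mem_nonunits_iff_inv_notMem P hz0).mpr hinv)
  obtain ⟨hs0, hsinv⟩ := hunit _ hsP hsn'
  obtain ⟨hu0, huinv⟩ := hunit _ huP hun
  refine ⟨((w : K) : Qbar) * ((s : Qbar)⁻¹ * (((u : K) : Qbar))⁻¹),
    P.mul_mem _ _ hwP (P.mul_mem _ _ hsinv huinv), ?_⟩
  rw [← mul_assoc, ← hw']
  field_simp

/-! ### The ring of integers of the inertia field -/

section Package

variable (P : ValuationSubring Qbar)

/-- The ring of integers of the inertia field of `P`: the elements of `P` fixed by the inertia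
subgroup of `P`. -/
def inertiaInt : Subring Qbar where
  carrier := {c | c ∈ P ∧ ∀ t ∈ P.inertiaSubgroupIn ℚ, t c = c}
  mul_mem' := by
    rintro a b ⟨ha, ha'⟩ ⟨hb, hb'⟩
    exact ⟨P.mul_mem _ _ ha hb, fun t ht => by rw [map_mul, ha' t ht, hb' t ht]⟩
  one_mem' := ⟨P.one_mem, fun t _ => map_one t⟩
  add_mem' := by
    rintro a b ⟨ha, ha'⟩ ⟨hb, hb'⟩
    exact ⟨P.add_mem _ _ ha hb, fun t ht => by rw [map_add, ha' t ht, hb' t ht]⟩
  zero_mem' := ⟨P.zero_mem, fun t _ => map_zero t⟩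
  neg_mem' := by
    rintro a ⟨ha, ha'⟩
    exact ⟨P.neg_mem _ ha, fun t ht => by rw [map_neg, ha' t ht]⟩

theorem mem_inertiaInt {c : Qbar} :
    c ∈ inertiaInt P ↔ c ∈ P ∧ ∀ t ∈ P.inertiaSubgroupIn ℚ, t c = c := Iff.rfl

theorem one_notMem_nonunits : (1 : Qbar) ∉ P.nonunits := by
  rw [ValuationSubring.mem_nonunits_iff, map_one]
  exact lt_irrefl _

theorem inv_mem_of_notMem_nonunits {z : Qbar} (hz : z ∈ P) (hzn : z ∉ P.nonunits) :
    z ≠ 0 ∧ z⁻¹ ∈ P := by
  have hz0 : z ≠ 0 := by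
    rintro rfl
    exact hzn P.nonunits.zero_mem
  refine ⟨hz0, ?_⟩
  by_contra hinv
  exact hzn ((mem_nonunits_iff_inv_notMem P hz0).mpr hinv)

theorem isUnit_inertiaInt_iff (c : inertiaInt P) : IsUnit c ↔ (c : Qbar) ∉ P.nonunits := by
  constructor
  · intro hu hc
    obtain ⟨d, hd⟩ := isUnit_iff_exists_inv.mp hu
    have h1 : (c : Qbar) * (d : Qbar) = 1 := by
      have := congrArg (fun z : inertiaInt P => (z : Qbar)) hd
      simpa using this
    have h2 := mul_mem_nonunits_of_mem P hc d.2.1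
    rw [h1] at h2
    exact one_notMem_nonunits P h2
  · intro hc
    obtain ⟨hc0, hcinv⟩ := inv_mem_of_notMem_nonunits P c.2.1 hc
    have hfix : ∀ t ∈ P.inertiaSubgroupIn ℚ, t ((c : Qbar)⁻¹) = (c : Qbar)⁻¹ := by
      intro t ht
      rw [map_inv₀, c.2.2 t ht]
    refine isUnit_iff_exists_inv.mpr ⟨⟨(c : Qbar)⁻¹, hcinv, hfix⟩, ?_⟩
    apply Subtype.ext
    show (c : Qbar) * (c : Qbar)⁻¹ = 1
    exact mul_inv_cancel₀ hc0

variable {p : ℕ} (hp : p.Prime) (hP : P.LiesOverPrime p)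
include hp hP

theorem natCast_ne_zero_Qbar : ((p : ℕ) : Qbar) ≠ 0 :=
  Nat.cast_ne_zero.mpr hp.ne_zero

/-- **(F1)** in `inertiaInt P`: every non-unit is divisible by `p`. -/
theorem natCast_dvd_of_mem_nonunits (c : inertiaInt P) (hc : (c : Qbar) ∈ P.nonunits) :
    (p : inertiaInt P) ∣ c := by
  obtain ⟨d, hdP, hd⟩ := div_mem_of_fixed P hp hP (c : Qbar) hc c.2.2
  have hp0 := natCast_ne_zero_Qbar P hp hP
  have hfix : ∀ t ∈ P.inertiaSubgroupIn ℚ, t d = d := by
    intro t ht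
    have h1 := c.2.2 t ht
    rw [hd, map_mul, map_natCast] at h1
    exact mul_left_cancel₀ hp0 h1
  refine ⟨⟨d, hdP, hfix⟩, ?_⟩
  apply Subtype.ext
  show (c : Qbar) = ((p : inertiaInt P) : Qbar) * d
  rw [hd]
  simp

/-- `P` is `p`-adically separated. -/
theorem eq_zero_of_forall_pow_mul (c : Qbar)
    (h : ∀ n : ℕ, ∃ d ∈ P, c = (p : Qbar) ^ n * d) : c = 0 := by
  classical
  have hp0 := natCast_ne_zero_Qbar P hp hP
  let K : IntermediateField ℚ Qbar := IntermediateField.adjoin ℚ {c}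
  have hKfd : FiniteDimensional ℚ K :=
    IntermediateField.adjoin.finiteDimensional (Algebra.IsIntegral.isIntegral c)
  have hDVR : IsDiscreteValuationRing (below P K) := isDiscreteValuationRing_below P K hp hP
  have hcK : c ∈ K := IntermediateField.mem_adjoin_simple_self ℚ c
  have hcP : c ∈ P := by
    obtain ⟨d, hd, hcd⟩ := h 0
    rw [hcd, pow_zero, one_mul]
    exact hd
  let cR : below P K := ⟨⟨c, hcK⟩, hcP⟩
  have hpR : ((p : ℕ) : below P K) ∈ IsLocalRing.maximalIdeal (below P K) := by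
    rw [← ValuationSubring.coe_mem_nonunits_iff]
    have h : ((p : ℕ) : K) ∈ (below P K).nonunits := below_liesOverPrime P K hP
    simpa using h
  have hmem : ∀ n : ℕ, cR ∈ (IsLocalRing.maximalIdeal (below P K)) ^ n := by
    intro n
    obtain ⟨d, hd, hcd⟩ := h n
    have hdK : d ∈ K := by
      have : d = c * ((p : Qbar) ^ n)⁻¹ := by
        rw [hcd]
        field_simp
      rw [this]
      exact K.mul_mem hcK (K.inv_mem (pow_mem (natCast_mem K p) n))
    let dR : below P K := ⟨⟨d, hdK⟩, hd⟩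
    have hcd' : cR = ((p : ℕ) : below P K) ^ n * dR := by
      apply Subtype.ext
      apply Subtype.ext
      show c = _
      rw [hcd]
      simp [dR]
    rw [hcd']
    exact Ideal.mul_mem_right _ _ (Ideal.pow_mem_pow hpR n)
  have hbot : (⨅ n : ℕ, (IsLocalRing.maximalIdeal (below P K)) ^ n) = ⊥ :=
    Ideal.iInf_pow_eq_bot_of_isLocalRing _ (IsLocalRing.maximalIdeal.isMaximal _).ne_top
  have h0 : cR ∈ (⊥ : Ideal (below P K)) := by
    rw [← hbot, Ideal.mem_iInf]
    exact hmem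
  rw [Ideal.mem_bot] at h0
  have h1 : (((cR : below P K) : K) : Qbar) = (((0 : below P K) : K) : Qbar) := by rw [h0]
  exact h1

theorem eq_zero_of_forall_pow_dvd (c : inertiaInt P)
    (h : ∀ n : ℕ, (p : inertiaInt P) ^ n ∣ c) : c = 0 := by
  apply Subtype.ext
  apply eq_zero_of_forall_pow_mul P hp hP
  intro n
  obtain ⟨d, hd⟩ := h n
  refine ⟨d, d.2.1, ?_⟩
  have := congrArg (fun z : inertiaInt P => (z : Qbar)) hd
  simpa using this

/-- The ring of integers of the inertia field is a discrete valuation ring with uniformiser `p`. -/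
theorem isDiscreteValuationRing_inertiaInt : IsDiscreteValuationRing (inertiaInt P) := by
  have hpP : ((p : ℕ) : Qbar) ∈ P.nonunits := hP
  have hp0 : ((p : ℕ) : inertiaInt P) ≠ 0 := by
    intro h
    apply natCast_ne_zero_Qbar P hp hP
    have := congrArg (fun z : inertiaInt P => (z : Qbar)) h
    simpa using this
  have hpnu : ¬ IsUnit ((p : ℕ) : inertiaInt P) := by
    rw [isUnit_inertiaInt_iff, not_not]
    simpa using hpP
  apply IsDiscreteValuationRing.ofHasUnitMulPowIrreducibleFactorization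
  refine ⟨((p : ℕ) : inertiaInt P), ?_, ?_⟩
  · rw [irreducible_iff]
    refine ⟨hpnu, ?_⟩
    intro a b hab
    by_contra hcon
    obtain ⟨ha, hb⟩ := not_or.mp hcon
    rw [isUnit_inertiaInt_iff, not_not] at ha hb
    obtain ⟨a', rfl⟩ := natCast_dvd_of_mem_nonunits P hp hP a ha
    obtain ⟨b', rfl⟩ := natCast_dvd_of_mem_nonunits P hp hP b hb
    have h1 : ((p : ℕ) : inertiaInt P) * 1 = (p : inertiaInt P) * ((p : inertiaInt P) * (a' * b')) := by
      rw [mul_one]
      conv_lhs => rw [hab]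
      ring
    have h2 := mul_left_cancel₀ hp0 h1
    exact hpnu (isUnit_iff_exists_inv.mpr ⟨_, h2.symm⟩)
  · intro x hx
    by_contra hcon
    apply hx
    apply eq_zero_of_forall_pow_dvd P hp hP
    intro n
    induction n with
    | zero => simp
    | succ n ih =>
      obtain ⟨y, rfl⟩ := ih
      have hy : ¬ IsUnit y := by
        intro hu
        exact hcon ⟨n, hu.unit, by simp⟩
      rw [isUnit_inertiaInt_iff, not_not] at hy
      obtain ⟨z, rfl⟩ := natCast_dvd_of_mem_nonunits P hp hP y hy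
      exact ⟨z, by ring⟩

/-- `ℤ_(p) ⊆ P`. -/
theorem ratLocalizedAt_mem (o : GaloisRep.ratLocalizedAt p) :
    algebraMap (GaloisRep.ratLocalizedAt p) Qbar o ∈ P := by
  have hpP : ((p : ℕ) : Qbar) ∈ P.nonunits := hP
  have h1 : algebraMap (GaloisRep.ratLocalizedAt p) Qbar o =
      (((o : ℚ).num : ℤ) : Qbar) * ((((o : ℚ).den : ℤ) : ℤ) : Qbar)⁻¹ := by
    show algebraMap ℚ Qbar (o : ℚ) = _
    conv_lhs => rw [← Rat.num_div_den (o : ℚ)]
    rw [map_div₀, div_eq_mul_inv]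
    simp
  have hnd : ¬ (p : ℤ) ∣ (((o : ℚ).den : ℕ) : ℤ) := by
    intro h
    have h2 : p ∣ (o : ℚ).den := Int.natCast_dvd_natCast.mp h
    have h3 : (o : ℚ).den.Coprime p := o.2
    exact hp.one_lt.ne' (Nat.Coprime.eq_one_of_dvd h3.symm h2)
  have h4 := intCast_not_mem_nonunits P hp hpP hnd
  have h5 : (((((o : ℚ).den : ℕ) : ℤ) : ℤ) : Qbar) ∈ P := intCast_mem P _
  rw [h1]
  exact P.mul_mem _ _ (intCast_mem P _) (inv_mem_of_notMem_nonunits P h5 h4).2

/-- Elements of `Qbar` integral over `ℤ_(p)` lie in `P`. -/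
theorem mem_of_isIntegral_ratLocalizedAt {c : Qbar}
    (hc : IsIntegral (GaloisRep.ratLocalizedAt p) c) : c ∈ P := by
  let φ : GaloisRep.ratLocalizedAt p →+* P :=
    (algebraMap (GaloisRep.ratLocalizedAt p) Qbar).codRestrict P.toSubring
      (ratLocalizedAt_mem P hp hP)
  letI : Algebra (GaloisRep.ratLocalizedAt p) P := φ.toAlgebra
  haveI : IsScalarTower (GaloisRep.ratLocalizedAt p) P Qbar :=
    IsScalarTower.of_algebraMap_eq (fun x => rfl)
  have h1 : IsIntegral P c := hc.tower_top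
  obtain ⟨y, hy⟩ := (IsIntegrallyClosed.isIntegral_iff (R := P) (K := Qbar)).mp h1
  rw [← hy]
  exact y.2

/-- The cyclotomic exponent of an automorphism on the `p`-th roots of unity. -/
theorem exists_cyclotomic_exponent (t : Γℚ) :
    ∃ a : ℕ, ∀ ζ : Qbar, ζ ^ p = 1 → t ζ = ζ ^ a := by
  haveI : NeZero p := ⟨hp.ne_zero⟩
  obtain ⟨ζ₀, hζ₀⟩ := HasEnoughRootsOfUnity.exists_primitiveRoot Qbar p
  have h1 : (t ζ₀) ^ p = 1 := by rw [← map_pow, hζ₀.pow_eq_one, map_one]
  obtain ⟨i, -, hi⟩ := hζ₀.eq_pow_of_pow_eq_one h1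
  refine ⟨i, fun ζ hζ => ?_⟩
  obtain ⟨j, -, rfl⟩ := hζ₀.eq_pow_of_pow_eq_one hζ
  rw [map_pow, ← hi, ← pow_mul, ← pow_mul, mul_comm]

end Package

section Package2

variable (P : ValuationSubring Qbar)

/-- Every inertia-fixed element of `Qbar` is a quotient of two elements of `inertiaInt P`. -/
theorem exists_mul_eq_of_fixed (c : Qbar) (hc : ∀ t ∈ P.inertiaSubgroupIn ℚ, t c = c) :
    ∃ d e : inertiaInt P, d ≠ 0 ∧ (d : Qbar) * c = (e : Qbar) := by
  rcases P.mem_or_inv_mem c with h | h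
  · exact ⟨1, ⟨c, h, hc⟩, one_ne_zero, one_mul c⟩
  · by_cases hc0 : c = 0
    · subst hc0
      exact ⟨1, 0, one_ne_zero, by simp⟩
    · have hfix : ∀ t ∈ P.inertiaSubgroupIn ℚ, t c⁻¹ = c⁻¹ := by
        intro t ht
        rw [map_inv₀, hc t ht]
      refine ⟨⟨c⁻¹, h, hfix⟩, 1, ?_, ?_⟩
      · intro h0
        have := congrArg (fun z : inertiaInt P => (z : Qbar)) h0
        exact inv_ne_zero hc0 this
      · show c⁻¹ * c = 1
        exact inv_mul_cancel₀ hc0

/-- The maximal ideal of `P` as a module over the integers of the inertia field. -/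
def nonunitsSubmodule : Submodule (inertiaInt P) Qbar where
  carrier := {c | c ∈ P.nonunits}
  add_mem' := fun ha hb => P.nonunits.add_mem ha hb
  zero_mem' := P.nonunits.zero_mem
  smul_mem' := by
    intro c x hx
    show (c : Qbar) * x ∈ P.nonunits
    rw [mul_comm]
    exact mul_mem_nonunits_of_mem P hx c.2.1

theorem mem_nonunitsSubmodule {c : Qbar} : c ∈ nonunitsSubmodule P ↔ c ∈ P.nonunits := Iff.rfl

end Package2

end Fermat.Agent.S56x.Flat.InertiaField
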