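import Fermat.Agent.S56x.Flat.Cartier

/-!
# P-S56, block (A): the points of a finite flat Hopf algebra over a characteristic-zero base
separate its elements; "killed by `n` on points" implies "killed by `n`"

`R` is a commutative ring embedded in a field `K` of characteristic zero (e.g. `R = ℤ_(p)`,
`K = ℚ`), `H` a commutative Hopf algebra over `R`, finite and flat as an `R`-module, and `L` an
algebraically closed field over `K`.  Then (Cartier's theorem for `K ⊗[R] H`):

* `eq_of_forall_point_eq` : two elements of `H` with the same value at every point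
  `H →ₐ[R] L` are equal;
* `killedBy_of_points` : if `g ^ n = 1` for every point `g` in the convolution monoid
  `WithConv (H →ₐ[R] L)` then `H` is killed by `n` in the sense of `Lib.HopfDiff.KilledBy`,
  hence `n • Ω[H⁄R] = 0`;
* `killedBy_of_addEquiv` : the same in the shape of the Prelude's `IsFlatAt`: the monoid of
  points is identified, additively, with an additive group killed by `n`.
-/

set_option autoImplicit false

noncomputable section

open TensorProduct Coalgebra Bialgebra HopfAlgebra KaehlerDifferential WithConv

namespace Fermat.Agent.S56x.Flat.PointsSeparate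

open Fermat.Agent.Lib.HopfDiff

variable {R : Type*} (K : Type*) {H : Type*} [CommRing R] [Field K] [Algebra R K] [CharZero K]
  [CommRing H] [HopfAlgebra R H] [Module.Finite R H] [Module.Flat R H]
  (L : Type*) [Field L] [Algebra R L] [Algebra K L] [IsScalarTower R K L] [IsAlgClosed L]

/-- the point of `H` induced by a point of the generic fibre `K ⊗[R] H`. -/
def restrictPoint (f : K ⊗[R] H →ₐ[K] L) : H →ₐ[R] L :=
  (f.restrictScalars R).comp (Algebra.TensorProduct.includeRight : H →ₐ[R] K ⊗[R] H)

omit [CharZero K] [Module.Finite R H] [Module.Flat R H] [IsAlgClosed L] in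
@[simp] theorem restrictPoint_apply (f : K ⊗[R] H →ₐ[K] L) (x : H) :
    restrictPoint K L f x = f ((1 : K) ⊗ₜ[R] x) := rfl

include K in
/-- **points separate** the elements of a finite flat Hopf algebra over a subring of a
characteristic zero field. -/
theorem eq_of_forall_point_eq (hinj : Function.Injective (algebraMap R K)) {x y : H}
    (h : ∀ g : H →ₐ[R] L, g x = g y) : x = y := by
  have hinc : Function.Injective (Algebra.TensorProduct.includeRight : H →ₐ[R] K ⊗[R] H) :=
    Algebra.TensorProduct.includeRight_injective hinj
  apply hinc
  refine Cartier.eq_of_forall_point_eq K (K ⊗[R] H) L (fun f => ?_)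
  exact h (restrictPoint K L f)

include K in
/-- if every point of `H` is killed by `n` then `H` is killed by `n`. -/
theorem killedBy_of_points (hinj : Function.Injective (algebraMap R K)) (n : ℕ)
    (h : ∀ g : WithConv (H →ₐ[R] L), g ^ n = 1) : KilledBy R H n := by
  have key : ∀ x : H, mulByN R H n x = algebraMap R H (counit x) := by
    intro x
    refine eq_of_forall_point_eq K L hinj (fun g => ?_)
    have h1 : g (mulByN R H n x) = (g.comp (mulByN R H n)) x := rfl
    rw [h1, comp_mulByN, h (toConv g)]
    show (1 : WithConv (H →ₐ[R] L)) x = _
    rw [AlgHom.convOne_apply, AlgHom.commutes]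
  unfold KilledBy
  apply WithConv.ofConv_injective
  ext x
  exact key x

include K in
/-- the same, in the shape of the Prelude's `IsFlatAt`: the points form an additive group killed
by `n`. -/
theorem killedBy_of_addEquiv (hinj : Function.Injective (algebraMap R K)) (n : ℕ)
    {M : Type*} [AddCommGroup M] (e : WithConv (H →ₐ[R] L) ≃ M)
    (he : ∀ f g : WithConv (H →ₐ[R] L), e (f * g) = e f + e g) (hM : ∀ m : M, n • m = 0) :
    KilledBy R H n := by
  have e1 : e 1 = 0 := by
    have := he 1 1
    rw [mul_one] at this
    exact left_eq_add.mp this
  have epow : ∀ (g : WithConv (H →ₐ[R] L)) (k : ℕ), e (g ^ k) = k • e g := by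
    intro g k
    induction k with
    | zero => rw [pow_zero, e1, zero_smul]
    | succ k ih => rw [pow_succ, he, ih, succ_nsmul]
  refine killedBy_of_points K L hinj n (fun g => ?_)
  apply e.injective
  rw [epow, hM, e1]

include K in
/-- consequence: `n` kills the Kähler differentials. -/
theorem nsmul_omega_eq_zero_of_addEquiv (hinj : Function.Injective (algebraMap R K)) (n : ℕ)
    {M : Type*} [AddCommGroup M] (e : WithConv (H →ₐ[R] L) ≃ M)
    (he : ∀ f g : WithConv (H →ₐ[R] L), e (f * g) = e f + e g) (hM : ∀ m : M, n • m = 0)
    (w : Ω[H⁄R]) : n • w = 0 :=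
  (killedBy_of_addEquiv K L hinj n e he hM).nsmul_omega_eq_zero w

end Fermat.Agent.S56x.Flat.PointsSeparate
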