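import Fermat.Agent.Lib.HopfDiff.MulByN

/-!
# P-S56, block (A): Cartier's theorem for finite Hopf algebras in characteristic zero

Let `K` be a field of characteristic zero and `A` a commutative Hopf algebra over `K` which is
finite-dimensional. Then the cotangent space `ω = I/I²` at the unit section vanishes, hence
`Ω[A⁄K] = A ⊗ ω = 0`, `A` is (formally) unramified over `K`, reduced, and the points of `A` with
values in an algebraically closed field separate the elements of `A`.

Proof of `ω = 0`: a non-zero class `w ∈ ω` gives a linear form `φ` with `φ w = 1`, hence an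
`ε`-derivation `d = φ ∘ toCot : A → K` and the invariant derivation `D = (id ⊗ d) ∘ Δ` of `A`, with
`ε ∘ D = d`.  For `x ∈ I` with `d x = 1` one gets `ε (D^n (x^n)) = n!`, whereas `D^n` maps
`I^(n+1)` into `I`.  As `A` is artinian, `I^n = I^(n+1)` for some `n`: contradiction (`n! ≠ 0`).
-/

set_option autoImplicit false

noncomputable section

open TensorProduct Coalgebra Bialgebra HopfAlgebra KaehlerDifferential

namespace Fermat.Agent.S56x.Flat.Cartier

open Fermat.Agent.Lib.HopfDiff

section Derivation

variable {K : Type*} {A : Type*} [Field K] [CommRing A] [HopfAlgebra K A]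

/-- the `A`-linear map `A ⊗ ω → A`, `a ⊗ w ↦ φ w • a`, attached to a linear form `φ` on `ω`. -/
def contract (φ : Cot K A →ₗ[K] K) : A ⊗[K] Cot K A →ₗ[A] A :=
  (TensorProduct.AlgebraTensorModule.rid K A A).toLinearMap ∘ₗ φ.baseChange A

@[simp] theorem contract_tmul (φ : Cot K A →ₗ[K] K) (a : A) (w : Cot K A) :
    contract φ (a ⊗ₜ[K] w) = φ w • a := by
  simp [contract]

/-- the invariant derivation `D_φ = (id ⊗ (φ ∘ toCot)) ∘ Δ` of `A`. -/
def invDer (φ : Cot K A →ₗ[K] K) : Derivation K A A := (contract φ).compDer (dCot K A)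

theorem invDer_apply (φ : Cot K A →ₗ[K] K) (b : A) :
    invDer φ b = contract φ ((toCot K A).lTensor A (comul b)) := rfl

/-- `ε (contract φ ((id ⊗ toCot) t)) = φ (toCot ((ε ⊗ id) t))`. -/
theorem counit_contract_lTensor (φ : Cot K A →ₗ[K] K) (t : A ⊗[K] A) :
    counit (R := K) (contract φ ((toCot K A).lTensor A t)) =
      φ (toCot K A ((TensorProduct.lid K A) (counit.rTensor A t))) := by
  induction t using TensorProduct.induction_on with
  | zero => simp
  | add s t hs ht => simp only [map_add, hs, ht]
  | tmul x y =>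
    simp only [LinearMap.lTensor_tmul, contract_tmul, LinearMap.rTensor_tmul,
      TensorProduct.lid_tmul, map_smul, smul_eq_mul]
    ring

/-- `ε ∘ D_φ = φ ∘ toCot`. -/
theorem counit_invDer (φ : Cot K A →ₗ[K] K) (b : A) :
    counit (R := K) (invDer φ b) = φ (toCot K A b) := by
  rw [invDer_apply, counit_contract_lTensor, Coalgebra.rTensor_counit_comul,
    TensorProduct.lid_tmul, one_smul]

/-- a derivation of `A` maps `I^(m+1)` into `I^m`. -/
theorem derivation_mem_pow (D : Derivation K A A) (I : Ideal A) :
    ∀ (m : ℕ) (y : A), y ∈ I ^ (m + 1) → D y ∈ I ^ m := by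
  intro m
  induction m with
  | zero => intro y _; simp
  | succ m ih =>
    intro y hy
    rw [pow_succ] at hy
    refine Submodule.mul_induction_on hy (fun a ha b hb => ?_) (fun a b ha hb => ?_)
    · rw [Derivation.leibniz, smul_eq_mul, smul_eq_mul]
      refine add_mem ?_ ?_
      · exact Ideal.mul_mem_right _ _ ha
      · rw [pow_succ, mul_comm b]
        exact Ideal.mul_mem_mul (ih a ha) hb
    · rw [map_add]; exact add_mem ha hb

/-- `D^j` maps `I^(m+j)` into `I^m`. -/
theorem derivation_iterate_mem_pow (D : Derivation K A A) (I : Ideal A) :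
    ∀ (j m : ℕ) (y : A), y ∈ I ^ (m + j) → (D^[j]) y ∈ I ^ m := by
  intro j
  induction j with
  | zero => intro m y hy; simpa using hy
  | succ j ih =>
    intro m y hy
    rw [Function.iterate_succ_apply]
    refine ih m (D y) ?_
    have : m + (j + 1) = (m + j) + 1 := by ring
    rw [this] at hy
    exact derivation_mem_pow D I (m + j) y hy

/-- the key computation: if `ε x = 0` and `ε (D x) = 1` then `ε (D^n (x^n)) = n!`. -/
theorem counit_iterate_pow (D : Derivation K A A) (x : A) (hx : counit (R := K) x = 0)
    (hD : counit (R := K) (D x) = 1) :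
    ∀ n : ℕ, counit (R := K) ((D^[n]) (x ^ n)) = (n.factorial : K) := by
  intro n
  induction n with
  | zero => simp
  | succ n ih =>
    rw [Function.iterate_succ_apply, Derivation.leibniz_pow]
    have hxI : x ∈ augIdeal K A := mem_augIdeal.mpr hx
    -- `(n+1) • x^n • D x = (n+1) • x^n + (n+1) • x^n * (D x - 1)`
    have hsplit : (n + 1) • x ^ (n + 1 - 1) • D x =
        ((n + 1 : ℕ) : K) • x ^ n + ((n + 1 : ℕ) : K) • (x ^ n * (D x - 1)) := by
      rw [Nat.add_sub_cancel, smul_eq_mul, ← Nat.cast_smul_eq_nsmul K, ← smul_add]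
      congr 1
      ring
    rw [hsplit]
    have hmem : ((n + 1 : ℕ) : K) • (x ^ n * (D x - 1)) ∈ augIdeal K A ^ (1 + n) := by
      refine Submodule.smul_of_tower_mem _ _ ?_
      rw [add_comm 1 n, pow_succ]
      refine Ideal.mul_mem_mul (Ideal.pow_mem_pow hxI n) ?_
      rw [mem_augIdeal, map_sub, hD, counit_one, sub_self]
    have h2 := derivation_iterate_mem_pow D (augIdeal K A) n 1 _ hmem
    rw [pow_one, mem_augIdeal] at h2
    have hlin : (D^[n]) (((n + 1 : ℕ) : K) • x ^ n + ((n + 1 : ℕ) : K) • (x ^ n * (D x - 1))) =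
        ((n + 1 : ℕ) : K) • (D^[n]) (x ^ n) +
          (D^[n]) (((n + 1 : ℕ) : K) • (x ^ n * (D x - 1))) := by
      have hit : ∀ (j : ℕ) (y : A), (D^[j]) y = ((D : A →ₗ[K] A) ^ j) y := by
        intro j y
        rw [Module.End.pow_apply]
        rfl
      rw [hit, hit, hit, map_add, map_smul]
    rw [hlin, map_add, h2, add_zero, map_smul, ih, smul_eq_mul, Nat.factorial_succ]
    push_cast
    ring

end Derivation

section Main

variable (K : Type*) (A : Type*) [Field K] [CharZero K] [CommRing A] [HopfAlgebra K A]
  [Module.Finite K A]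

/-- **Cartier's theorem, finite case**: the cotangent space at the unit section of a finite
commutative Hopf algebra over a field of characteristic zero vanishes. -/
theorem cot_subsingleton : Subsingleton (Cot K A) := by
  by_contra hns
  rw [not_subsingleton_iff_nontrivial] at hns
  obtain ⟨w, hw⟩ := exists_ne (0 : Cot K A)
  -- a linear form with `φ w = 1`
  obtain ⟨φ₀, hφ₀⟩ : ∃ φ : Module.Dual K (Cot K A), φ w ≠ 0 := by
    by_contra hcon
    rw [not_exists] at hcon
    simp only [not_not] at hcon
    exact hw ((Module.forall_dual_apply_eq_zero_iff K w).mp hcon)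
  set φ : Cot K A →ₗ[K] K := (φ₀ w)⁻¹ • φ₀ with hφdef
  have hφ : φ w = 1 := by
    rw [hφdef, LinearMap.smul_apply, smul_eq_mul, inv_mul_cancel₀ hφ₀]
  -- `x ∈ I` with `toCot x = w`
  obtain ⟨x₀, hx₀⟩ := toCot_surjective K A w
  set x : A := x₀ - algebraMap K A (counit x₀) with hxdef
  have hxI : x ∈ augIdeal K A := sub_algebraMap_counit_mem x₀
  have hxw : toCot K A x = w := by
    rw [hxdef, map_sub, toCot_algebraMap, sub_zero, hx₀]
  have hx : counit (R := K) x = 0 := mem_augIdeal.mp hxI
  have hD : counit (R := K) (invDer φ x) = 1 := by rw [counit_invDer, hxw, hφ]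
  -- the chain `I^n` stabilises
  have : IsArtinianRing A := IsArtinianRing.of_finite K A
  obtain ⟨n, hn⟩ := IsArtinian.monotone_stabilizes (R := A) (M := A)
    ⟨fun n => OrderDual.toDual (augIdeal K A ^ n), fun a b hab =>
      OrderDual.toDual_le_toDual.mpr (Ideal.pow_le_pow_right hab)⟩
  have hn1 : augIdeal K A ^ n = augIdeal K A ^ (n + 1) := by
    have := hn (n + 1) (Nat.le_succ n)
    exact OrderDual.toDual.injective this
  have hmem : x ^ n ∈ augIdeal K A ^ (1 + n) := by
    rw [add_comm, ← hn1]
    exact Ideal.pow_mem_pow hxI n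
  have h2 := derivation_iterate_mem_pow (invDer φ) (augIdeal K A) n 1 _ hmem
  rw [pow_one, mem_augIdeal, counit_iterate_pow (invDer φ) x hx hD n] at h2
  exact (Nat.cast_ne_zero.mpr (Nat.factorial_ne_zero n)) h2

/-- the Kähler differentials of a finite commutative Hopf algebra in characteristic zero
vanish. -/
theorem omega_subsingleton : Subsingleton (Ω[A⁄K]) := by
  have := cot_subsingleton K A
  exact (omegaEquiv K A).toEquiv.subsingleton

/-- a finite commutative Hopf algebra over a field of characteristic zero is formally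
unramified. -/
theorem formallyUnramified : Algebra.FormallyUnramified K A :=
  ⟨omega_subsingleton K A⟩

include K in
/-- a finite commutative Hopf algebra over a field of characteristic zero is reduced. -/
theorem isReduced : IsReduced A := by
  have := formallyUnramified K A
  exact Algebra.FormallyUnramified.isReduced_of_field K A

/-- **points separate**: a non-zero element of a finite commutative Hopf algebra over a field of
characteristic zero is non-zero at some point with values in a given algebraically closed
extension. -/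
theorem exists_point_ne_zero (L : Type*) [Field L] [Algebra K L] [IsAlgClosed L] {x : A}
    (hx : x ≠ 0) : ∃ f : A →ₐ[K] L, f x ≠ 0 := by
  have hred : IsReduced A := isReduced K A
  have hnil : x ∉ nilradical A := by
    rw [nilradical_eq_zero]
    exact hx
  rw [nilradical_eq_sInf, Ideal.mem_sInf] at hnil
  push Not at hnil
  obtain ⟨P, hP, hxP⟩ := hnil
  have hP' : P.IsPrime := hP
  have : IsArtinianRing A := IsArtinianRing.of_finite K A
  have hmax : P.IsMaximal := IsArtinianRing.isMaximal_of_isPrime P
  let _ : Field (A ⧸ P) := Ideal.Quotient.field P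
  have : Module.Finite K (A ⧸ P) := Module.Finite.of_surjective
    (Ideal.Quotient.mkₐ K P).toLinearMap (Ideal.Quotient.mkₐ_surjective K P)
  have : Algebra.IsAlgebraic K (A ⧸ P) := Algebra.IsAlgebraic.of_finite K (A ⧸ P)
  let j : (A ⧸ P) →ₐ[K] L := IsAlgClosed.lift
  refine ⟨j.comp (Ideal.Quotient.mkₐ K P), ?_⟩
  rw [AlgHom.comp_apply, Ideal.Quotient.mkₐ_eq_mk]
  intro h0
  have h1 : (Ideal.Quotient.mk P x) = 0 := by
    apply j.toRingHom.injective
    rw [map_zero]
    exact h0
  exact hxP (Ideal.Quotient.eq_zero_iff_mem.mp h1)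

/-- **points separate**, equational form. -/
theorem eq_of_forall_point_eq (L : Type*) [Field L] [Algebra K L] [IsAlgClosed L] {x y : A}
    (h : ∀ f : A →ₐ[K] L, f x = f y) : x = y := by
  by_contra hxy
  obtain ⟨f, hf⟩ := exists_point_ne_zero K A L (sub_ne_zero.mpr hxy)
  rw [map_sub, sub_ne_zero] at hf
  exact hf (h f)

end Main

end Fermat.Agent.S56x.Flat.Cartier
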