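/-
P-S56, block (A) LOCAL FLAT, the `p = 3` block ("c-slot kill"), CORE (owner: helper94).

Pure algebra: `Ω` a field with an action of a group `I` ("inertia") by ring automorphisms, `X` a set
with an `I`-action, functions `X → Ω`.  A function `f` is *equivariant* if `f (t • P) = t • f P`
(this is invariance for the semilinear action `(t f)(P) = t (f (t⁻¹ P))`).

* `linearIndependent_of_equivariant` (Artin's lemma): equivariant functions which are linearly
  independent over the fixed field of `I` are linearly independent over `Ω`.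
* `eq_one_of_equivariant` : the descent + `p`-th power argument behind the "(UNR) on characters"
  proof of the c-slot kill.
-/
import Mathlib
import Fermat.Agent.S56x.Fontaine.Lift

set_option autoImplicit false

namespace Fermat.Agent.S56x.Flat.CSlotCore

open Fermat.Agent.S56x.Fontaine.Lift

variable {Ω : Type*} [Field Ω] {I : Type*} [Group I] [MulSemiringAction I Ω]
  {X : Type*} [MulAction I X]

/-- `f (t • P) = t • f P`: invariance of `f` under the semilinear action of `I` on functions. -/
def IsEquivariant (I : Type*) [Group I] [MulSemiringAction I Ω] [MulAction I X] (f : X → Ω) :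
    Prop :=
  ∀ (t : I) (P : X), f (t • P) = t • f P

theorem isEquivariant_one : IsEquivariant I (1 : X → Ω) := fun t P => by simp

theorem IsEquivariant.mul {f g : X → Ω} (hf : IsEquivariant I f) (hg : IsEquivariant I g) :
    IsEquivariant I (f * g) := fun t P => by
  simp only [Pi.mul_apply, hf t P, hg t P, smul_mul']

theorem IsEquivariant.add {f g : X → Ω} (hf : IsEquivariant I f) (hg : IsEquivariant I g) :
    IsEquivariant I (f + g) := fun t P => by
  simp only [Pi.add_apply, hf t P, hg t P, smul_add]

theorem IsEquivariant.sub {f g : X → Ω} (hf : IsEquivariant I f) (hg : IsEquivariant I g) :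
    IsEquivariant I (f - g) := fun t P => by
  simp only [Pi.sub_apply, hf t P, hg t P, smul_sub]

theorem IsEquivariant.smul_of_fixed {f : X → Ω} (hf : IsEquivariant I f) {c : Ω}
    (hc : ∀ t : I, t • c = c) : IsEquivariant I (c • f) := fun t P => by
  simp only [Pi.smul_apply, smul_eq_mul, hf t P, smul_mul', hc t]

theorem isEquivariant_zero : IsEquivariant I (0 : X → Ω) := fun t P => by simp

theorem IsEquivariant.sum {ι : Type*} (s : Finset ι) {f : ι → X → Ω}
    (hf : ∀ i ∈ s, IsEquivariant I (f i)) : IsEquivariant I (∑ i ∈ s, f i) := by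
  classical
  induction s using Finset.induction_on with
  | empty => simpa using isEquivariant_zero
  | insert a s ha ih =>
    rw [Finset.sum_insert ha]
    exact (hf a (Finset.mem_insert_self a s)).add
      (ih fun i hi => hf i (Finset.mem_insert_of_mem hi))

/-- twisting a linear relation between equivariant functions by `t`. -/
theorem sum_smul_smul_eq_zero {ι : Type*} {b : ι → X → Ω} (hb : ∀ i, IsEquivariant I (b i))
    (s : Finset ι) (g : ι → Ω) (h : ∑ i ∈ s, g i • b i = 0) (t : I) :
    ∑ i ∈ s, (t • g i) • b i = 0 := by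
  funext P
  have h1 := congrFun h (t⁻¹ • P)
  simp only [Finset.sum_apply, Pi.smul_apply, smul_eq_mul, Pi.zero_apply] at h1 ⊢
  have h2 := congrArg (fun c => t • c) h1
  simp only [Finset.smul_sum, smul_mul', smul_zero] at h2
  rw [← h2]
  refine Finset.sum_congr rfl fun i _ => ?_
  rw [← hb i t (t⁻¹ • P), smul_inv_smul]

/-- **Artin's lemma** for equivariant functions: linear independence over the fixed field implies
linear independence over `Ω`. -/
theorem linearIndependent_of_equivariant {ι : Type*} {b : ι → X → Ω}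
    (hb : ∀ i, IsEquivariant I (b i))
    (hT : ∀ (s : Finset ι) (g : ι → Ω), (∀ i ∈ s, ∀ t : I, t • g i = g i) →
      ∑ i ∈ s, g i • b i = 0 → ∀ i ∈ s, g i = 0) :
    LinearIndependent Ω b := by
  classical
  rw [linearIndependent_iff']
  intro s
  induction s using Finset.strongInduction with
  | H s ih =>
    intro g hg
    by_contra hcon
    push Not at hcon
    obtain ⟨i0, hi0, hgi0⟩ := hcon
    -- normalise
    set g' : ι → Ω := fun i => (g i0)⁻¹ * g i with hg'
    have hg'0 : g' i0 = 1 := by simp [hg', hgi0]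
    have hrel : ∑ i ∈ s, g' i • b i = 0 := by
      have : ∑ i ∈ s, g' i • b i = (g i0)⁻¹ • ∑ i ∈ s, g i • b i := by
        rw [Finset.smul_sum]
        refine Finset.sum_congr rfl fun i _ => ?_
        rw [hg', smul_smul]
      rw [this, hg, smul_zero]
    -- all coefficients are fixed
    have hfix : ∀ i ∈ s, ∀ t : I, t • g' i = g' i := by
      intro i hi t
      have h1 := sum_smul_smul_eq_zero hb s g' hrel t
      have h2 : ∑ i ∈ s.erase i0, (t • g' i - g' i) • b i = 0 := by
        have h3 : ∑ i ∈ s, (t • g' i - g' i) • b i = 0 := by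
          simp only [sub_smul, Finset.sum_sub_distrib, h1, hrel, sub_zero]
        rw [← Finset.add_sum_erase s _ hi0] at h3
        rw [hg'0, smul_one, sub_self, zero_smul, zero_add] at h3
        exact h3
      by_cases hii0 : i = i0
      · rw [hii0, hg'0, smul_one]
      · have := ih (s.erase i0) (Finset.erase_ssubset hi0) (fun i => t • g' i - g' i) h2 i
          (Finset.mem_erase.mpr ⟨hii0, hi⟩)
        exact sub_eq_zero.mp this
    have := hT s g' hfix hrel i0 hi0
    rw [hg'0] at this
    exact one_ne_zero this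


/-- an equivariant function written as a combination of equivariant functions has the `t`-twisted
coefficients as well. -/
theorem sum_smul_smul_eq {ι : Type*} {b : ι → X → Ω} (hb : ∀ i, IsEquivariant I (b i))
    (s : Finset ι) (g : ι → Ω) {F : X → Ω} (hF : IsEquivariant I F)
    (h : F = ∑ i ∈ s, g i • b i) (t : I) :
    F = ∑ i ∈ s, (t • g i) • b i := by
  funext P
  have h1 := congrFun h (t⁻¹ • P)
  simp only [Finset.sum_apply, Pi.smul_apply, smul_eq_mul] at h1 ⊢
  have h2 := congrArg (fun c => t • c) h1
  simp only [Finset.smul_sum, smul_mul'] at h2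
  rw [← hF t (t⁻¹ • P), smul_inv_smul] at h2
  rw [h2]
  refine Finset.sum_congr rfl fun i _ => ?_
  rw [← hb i t (t⁻¹ • P), smul_inv_smul]

section Main

variable {OT : Type*} [CommRing OT] [IsDomain OT] [IsPrincipalIdealRing OT] [Algebra OT Ω]

omit [IsDomain OT] [IsPrincipalIdealRing OT] in
/-- elements of the `OT`-span of equivariant functions are equivariant (`OT` maps into the fixed
field). -/
theorem isEquivariant_of_mem_span
    (hOT : ∀ (c : OT) (t : I), t • algebraMap OT Ω c = algebraMap OT Ω c)
    {S : Set (X → Ω)} (hS : ∀ f ∈ S, IsEquivariant I f) {f : X → Ω}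
    (hf : f ∈ Submodule.span OT S) : IsEquivariant I f := by
  induction hf using Submodule.span_induction with
  | mem f hf => exact hS f hf
  | zero => exact isEquivariant_zero
  | add f g _ _ hf hg => exact hf.add hg
  | smul c f _ hf =>
    have : c • f = (algebraMap OT Ω c) • f := by
      funext P
      simp [Algebra.smul_def]
    rw [this]
    exact hf.smul_of_fixed (hOT c)

/-- **Core of the c-slot kill.**  `OT` ("integers of the inertia field", a PID, `p`-adically
separated) maps into the fixed field of `I`, which is its fraction field; `𝔪` is an `OT`-submodule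
of `Ω` ("the maximal ideal of the big valuation ring") whose `I`-invariants are divisible by `p` in
`OT` (the inertia field is unramified).  `a j` are finitely many equivariant functions whose
`OT`-span is a ring.  An equivariant function `x ≡ 1` modulo `𝔪 · span` with `x ^ p = 1`, `p` odd,
is `1`. -/
theorem eq_one_of_equivariant
    (hinj : Function.Injective (algebraMap OT Ω))
    (hOT : ∀ (c : OT) (t : I), t • algebraMap OT Ω c = algebraMap OT Ω c)
    (hfrac : ∀ c : Ω, (∀ t : I, t • c = c) →
      ∃ d e : OT, d ≠ 0 ∧ algebraMap OT Ω d * c = algebraMap OT Ω e)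
    {p : ℕ} (hp : p.Prime) (hp2 : p ≠ 2) (hpΩ : (p : Ω) ≠ 0)
    (hsepT : ∀ c : OT, (∀ n : ℕ, (p : OT) ^ n ∣ c) → c = 0)
    (𝔪 : Submodule OT Ω)
    (hF1 : ∀ c ∈ 𝔪, (∀ t : I, t • c = c) → ∃ d : OT, c = (p : Ω) * algebraMap OT Ω d)
    {J : Type*} [Fintype J] (a : J → X → Ω) (ha : ∀ j, IsEquivariant I (a j))
    (h1 : (1 : X → Ω) ∈ Submodule.span OT (Set.range a))
    (hmul : ∀ f g : X → Ω, f ∈ Submodule.span OT (Set.range a) →
      g ∈ Submodule.span OT (Set.range a) → f * g ∈ Submodule.span OT (Set.range a))
    (x : X → Ω) (hx : IsEquivariant I x)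
    (hxm : ∃ d : J → Ω, (∀ j, d j ∈ 𝔪) ∧ x - 1 = ∑ j, d j • a j)
    (hxp : x ^ p = 1) : x = 1 := by
  classical
  set M : Submodule OT (X → Ω) := Submodule.span OT (Set.range a) with hM
  have hMeq : ∀ f ∈ M, IsEquivariant I f := fun f hf =>
    isEquivariant_of_mem_span hOT (by rintro f ⟨j, rfl⟩; exact ha j) hf
  have hfinM : Module.Finite OT M := Module.Finite.span_of_finite OT (Set.finite_range a)
  have hsmul_apply : ∀ (c : OT) (f : X → Ω) (P : X), (c • f) P = algebraMap OT Ω c * f P := by
    intro c f P
    simp [Algebra.smul_def]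
  have htfM : Module.IsTorsionFree OT M := by
    refine ⟨fun r hr f g hfg => ?_⟩
    have hr0 : algebraMap OT Ω r ≠ 0 := by
      intro h0
      have : r = 0 := hinj (by rw [h0, map_zero])
      exact hr.ne_zero this
    apply Subtype.ext
    funext P
    have h2 := congrArg (fun f : M => (f : X → Ω) P) hfg
    simp only [Submodule.coe_smul, hsmul_apply] at h2
    exact mul_left_cancel₀ hr0 h2
  obtain ⟨m, b⟩ : Σ m : ℕ, Module.Basis (Fin m) OT M := Module.basisOfFiniteTypeTorsionFree'
  set bΩ : Fin m → X → Ω := fun i => ((b i : M) : X → Ω) with hbΩ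
  have hbeq : ∀ i, IsEquivariant I (bΩ i) := fun i => hMeq _ (b i).2
  -- coordinates
  have hrepr : ∀ f : M, (f : X → Ω) = ∑ i, algebraMap OT Ω (b.repr f i) • bΩ i := by
    intro f
    have h := congrArg (fun g : M => (g : X → Ω)) (b.sum_repr f)
    simp only [Submodule.coe_sum, Submodule.coe_smul] at h
    rw [← h]
    refine Finset.sum_congr rfl fun i _ => ?_
    funext P
    simp [hsmul_apply, hbΩ]
  -- independence over the fixed field
  have hT : ∀ (s : Finset (Fin m)) (g : Fin m → Ω), (∀ i ∈ s, ∀ t : I, t • g i = g i) →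
      ∑ i ∈ s, g i • bΩ i = 0 → ∀ i ∈ s, g i = 0 := by
    intro s g hg hrel
    choose! d e hd hde using fun i => hfrac (g i)
    set D : OT := ∏ i ∈ s, d i with hD
    have hD0 : D ≠ 0 := by
      rw [hD, Finset.prod_ne_zero_iff]
      intro i hi
      exact hd i (hg i hi)
    -- D * g i is in OT
    have hDg : ∀ i ∈ s, algebraMap OT Ω D * g i =
        algebraMap OT Ω ((∏ j ∈ s.erase i, d j) * e i) := by
      intro i hi
      rw [hD, ← Finset.mul_prod_erase s d hi, map_mul, map_mul, mul_comm (algebraMap OT Ω (d i)),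
        mul_assoc, hde i (hg i hi)]
    have hrel2 : ∑ i ∈ s, ((∏ j ∈ s.erase i, d j) * e i) • b i = 0 := by
      apply Subtype.ext
      have h3 : algebraMap OT Ω D • ∑ i ∈ s, g i • bΩ i = 0 := by rw [hrel, smul_zero]
      rw [Finset.smul_sum] at h3
      simp only [Submodule.coe_sum, Submodule.coe_smul, Submodule.coe_zero]
      rw [← h3]
      refine Finset.sum_congr rfl fun i hi => ?_
      funext P
      simp only [hsmul_apply, Pi.smul_apply, smul_eq_mul, hbΩ]
      rw [← hDg i hi, mul_assoc]
    have hlin := b.linearIndependent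
    rw [linearIndependent_iff'] at hlin
    intro i hi
    have h4 := hlin s _ hrel2 i hi
    have h5 : algebraMap OT Ω D * g i = 0 := by rw [hDg i hi, h4, map_zero]
    have hD0' : algebraMap OT Ω D ≠ 0 := fun h0 => hD0 (hinj (by rw [h0, map_zero]))
    exact (mul_eq_zero.mp h5).resolve_left hD0'
  have hLI : LinearIndependent Ω bΩ := linearIndependent_of_equivariant hbeq hT
  -- coefficients of `x - 1`
  obtain ⟨dd, hdd, hx1⟩ := hxm
  have haM : ∀ j, a j ∈ M := fun j => Submodule.subset_span ⟨j, rfl⟩
  set δ : Fin m → Ω := fun i => ∑ j, dd j * algebraMap OT Ω (b.repr ⟨a j, haM j⟩ i) with hδ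
  have hδm : ∀ i, δ i ∈ 𝔪 := by
    intro i
    refine Submodule.sum_mem _ fun j _ => ?_
    have : dd j * algebraMap OT Ω (b.repr ⟨a j, haM j⟩ i) = (b.repr ⟨a j, haM j⟩ i) • dd j := by
      rw [Algebra.smul_def, mul_comm]
    rw [this]
    exact Submodule.smul_mem _ _ (hdd j)
  have hx1' : x - 1 = ∑ i, δ i • bΩ i := by
    rw [hx1]
    have : ∀ j, dd j • a j = ∑ i, (dd j * algebraMap OT Ω (b.repr ⟨a j, haM j⟩ i)) • bΩ i := by
      intro j
      have h := hrepr ⟨a j, haM j⟩
      simp only at h
      conv_lhs => rw [h]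
      rw [Finset.smul_sum]
      refine Finset.sum_congr rfl fun i _ => ?_
      rw [smul_smul]
    simp only [this]
    rw [Finset.sum_comm]
    refine Finset.sum_congr rfl fun i _ => ?_
    rw [hδ, Finset.sum_smul]
  -- the coefficients are invariant
  have hx1eq : IsEquivariant I (x - 1) := hx.sub isEquivariant_one
  have hδfix : ∀ i, ∀ t : I, t • δ i = δ i := by
    intro i t
    have h2 := sum_smul_smul_eq hbeq Finset.univ δ hx1eq hx1' t
    have h3 : ∑ i, (t • δ i - δ i) • bΩ i = 0 := by
      simp only [sub_smul, Finset.sum_sub_distrib]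
      rw [← h2, ← hx1', sub_self]
    rw [linearIndependent_iff'] at hLI
    exact sub_eq_zero.mp (hLI Finset.univ _ h3 i (Finset.mem_univ i))
  choose δ' hδ' using fun i => hF1 (δ i) (hδm i) (hδfix i)
  -- `x - 1 = p • y`, `y ∈ M`
  set y : M := ∑ i, δ' i • b i with hy
  have hxy : x - 1 = (p : Ω) • (y : X → Ω) := by
    rw [hx1', hrepr y, Finset.smul_sum]
    refine Finset.sum_congr rfl fun i _ => ?_
    have hry : b.repr y i = δ' i := by
      rw [hy]
      exact congrFun (b.repr_sum_self δ') i
    rw [smul_smul, hδ' i, hry]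
  -- the subring with carrier `M`
  let S : Subring (X → Ω) :=
    { carrier := M
      mul_mem' := fun {f g} hf hg => hmul f g hf hg
      one_mem' := h1
      add_mem' := fun {f g} hf hg => M.add_mem hf hg
      zero_mem' := M.zero_mem
      neg_mem' := fun {f} hf => M.neg_mem hf }
  have hxM : x ∈ M := by
    have : x = 1 + (p : Ω) • (y : X → Ω) := by rw [← hxy]; ring
    rw [this]
    refine M.add_mem h1 ?_
    have h5 : (p : Ω) • (y : X → Ω) = (p : OT) • (y : X → Ω) := by
      funext P
      simp [hsmul_apply]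
    rw [h5]
    exact M.smul_mem _ y.2
  set xS : S := ⟨x, hxM⟩ with hxS
  have hxSp : xS ^ p = 1 := Subtype.ext (by simpa using hxp)
  set g : Sˣ := Units.ofPowEqOne xS p hxSp hp.ne_zero with hg
  have hgval : (g : S) = xS := rfl
  have hreg : ∀ f : S, (p : S) * f = 0 → f = 0 := by
    intro f hf
    apply Subtype.ext
    funext P
    have h2 := congrArg (fun f : S => (f : X → Ω) P) hf
    simp only [Subring.coe_mul, Pi.mul_apply, Subring.coe_natCast, Pi.natCast_apply,
      Subring.coe_zero, Pi.zero_apply] at h2
    exact (mul_eq_zero.mp h2).resolve_left hpΩ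
  have hsep : ∀ f : S, (∀ k : ℕ, (p : S) ^ k ∣ f) → f = 0 := by
    intro f hf
    have hfM : (f : X → Ω) ∈ M := f.2
    have hcoord : ∀ i, b.repr ⟨(f : X → Ω), hfM⟩ i = 0 := by
      intro i
      apply hsepT
      intro k
      obtain ⟨f', hf'⟩ := hf k
      have hf'M : (f' : X → Ω) ∈ M := f'.2
      have h2 : (⟨(f : X → Ω), hfM⟩ : M) = ((p : OT) ^ k) • ⟨(f' : X → Ω), hf'M⟩ := by
        apply Subtype.ext
        have h3 := congrArg (fun f : S => (f : X → Ω)) hf'
        simp only [Subring.coe_mul, Subring.coe_pow, Subring.coe_natCast] at h3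
        rw [h3]
        funext P
        simp [hsmul_apply]
      rw [h2, map_smul]
      exact ⟨b.repr ⟨(f' : X → Ω), hf'M⟩ i, by simp⟩
    apply Subtype.ext
    have h4 : (⟨(f : X → Ω), hfM⟩ : M) = 0 := by
      apply b.repr.injective
      ext i
      rw [hcoord i]
      simp
    exact congrArg (fun f : M => (f : X → Ω)) h4
  have hdvd : (p : S) ∣ (g : S) - 1 := by
    refine ⟨⟨(y : X → Ω), y.2⟩, ?_⟩
    apply Subtype.ext
    rw [hgval]
    show (xS : X → Ω) - 1 = ((p : S) : X → Ω) * (y : X → Ω)
    rw [hxS]
    simp only [Subring.coe_natCast]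
    rw [hxy]
    funext P
    simp
  have hg1 : g = 1 := unr_core_p hp hp2 hreg hsep (Units.pow_ofPowEqOne hxSp hp.ne_zero) hdvd
  have hxS1 : xS = 1 := by rw [← hgval, hg1, Units.val_one]
  exact congrArg (fun f : S => (f : X → Ω)) hxS1

end Main

end Fermat.Agent.S56x.Flat.CSlotCore
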