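/-
P-S56, block (A) LOCAL FLAT, the `p = 3` block ("c-slot kill"), file 2 (owner: helper94).

INTEGRALITY OF CHARACTERS (Cartier duality, elementary form).  `H` a commutative cocommutative
bialgebra, finite free over `O`; `Ω` a field over `O` such that the points `H →ₐ[O] Ω` span the
convolution algebra `CRing O H Ω = Hom_O(H, Ω)` (true as soon as the points separate `Ω ⊗ H`, e.g.
`Ω` algebraically closed of characteristic zero: Cartier).  Then every multiplicative character
`χ` of the monoid of points is an `O`-INTEGRAL linear combination of the evaluation functions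
`g ↦ g (b i)` (`b` a basis of `H`): the points form an `Ω`-basis of `Hom_O(H, Ω)`, `χ` extends to
an `Ω`-algebra hom `χ̃` on it, and the restriction of `χ̃` to the finite `O`-algebra
`CRing O H O = Hom_O(H, O)` takes integral values.
-/
import Mathlib
import Fermat.Agent.S56x.Hopf.GroupLike

set_option autoImplicit false
set_option linter.unusedSectionVars false

noncomputable section

namespace Fermat.Agent.S56x.Flat.CharIntegral

open Fermat.Agent.S56x.Hopf WithConv

universe u v w

variable {O : Type u} {H : Type v} {Ω : Type w}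
  [CommRing O] [CommRing H] [Bialgebra O H] [Coalgebra.IsCocomm O H]
  [Field Ω] [Algebra O Ω]

/-- the family of points inside the convolution algebra `Hom_O(H, Ω)`. -/
def ptsFamily : WithConv (H →ₐ[O] Ω) → CRing O H Ω := fun g => ptsHom g

theorem ptsFamily_linearIndependent :
    LinearIndependent Ω (ptsFamily : WithConv (H →ₐ[O] Ω) → CRing O H Ω) := by
  have h := linearIndependent_toLinearMap O H Ω
  have h2 : LinearIndependent Ω
      (fun g : WithConv (H →ₐ[O] Ω) => (g.ofConv.toLinearMap : H →ₗ[O] Ω)) :=
    h.comp (fun g : WithConv (H →ₐ[O] Ω) => g.ofConv) WithConv.ofConv_injective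
  exact (LinearMap.linearIndependent_iff (WithConv.linearEquiv Ω (H →ₗ[O] Ω)).symm.toLinearMap
    (LinearMap.ker_eq_bot_of_injective (WithConv.linearEquiv Ω (H →ₗ[O] Ω)).symm.injective)).mpr h2

variable (hspan : Submodule.span Ω (Set.range
  (ptsFamily : WithConv (H →ₐ[O] Ω) → CRing O H Ω)) = ⊤)

/-- the points as an `Ω`-basis of `Hom_O(H, Ω)`. -/
def ptsBasis : Module.Basis (WithConv (H →ₐ[O] Ω)) Ω (CRing O H Ω) :=
  Module.Basis.mk ptsFamily_linearIndependent (le_of_eq hspan.symm)

theorem ptsBasis_apply (g : WithConv (H →ₐ[O] Ω)) : ptsBasis hspan g = ptsHom g := by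
  simp [ptsBasis, ptsFamily]

/-- the linear extension of a character to `Hom_O(H, Ω)`. -/
def charExt (χ : WithConv (H →ₐ[O] Ω) →* Ω) : CRing O H Ω →ₗ[Ω] Ω :=
  (ptsBasis hspan).constr Ω (fun g => χ g)

theorem charExt_ptsHom (χ : WithConv (H →ₐ[O] Ω) →* Ω) (g : WithConv (H →ₐ[O] Ω)) :
    charExt hspan χ (ptsHom g) = χ g := by
  rw [← ptsBasis_apply hspan, charExt, Module.Basis.constr_basis]

theorem charExt_one (χ : WithConv (H →ₐ[O] Ω) →* Ω) : charExt hspan χ 1 = 1 := by
  have : (1 : CRing O H Ω) = ptsHom (1 : WithConv (H →ₐ[O] Ω)) := (map_one ptsHom).symm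
  rw [this, charExt_ptsHom, map_one]

theorem charExt_mul (χ : WithConv (H →ₐ[O] Ω) →* Ω) (x y : CRing O H Ω) :
    charExt hspan χ (x * y) = charExt hspan χ x * charExt hspan χ y := by
  have hx : x ∈ Submodule.span Ω (Set.range
      (ptsFamily : WithConv (H →ₐ[O] Ω) → CRing O H Ω)) := hspan ▸ Submodule.mem_top
  have hy : y ∈ Submodule.span Ω (Set.range
      (ptsFamily : WithConv (H →ₐ[O] Ω) → CRing O H Ω)) := hspan ▸ Submodule.mem_top
  induction hx using Submodule.span_induction with
  | mem x hx =>
    obtain ⟨g, rfl⟩ := hx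
    induction hy using Submodule.span_induction with
    | mem y hy =>
      obtain ⟨g', rfl⟩ := hy
      simp only [ptsFamily]
      rw [← map_mul, charExt_ptsHom, charExt_ptsHom, charExt_ptsHom, map_mul]
    | zero => simp
    | add y z _ _ hy hz => rw [mul_add, map_add, hy, hz, map_add, mul_add]
    | smul c y _ hy =>
      rw [mul_smul_comm, map_smul, hy, map_smul, smul_eq_mul, smul_eq_mul]
      ring
  | zero => simp
  | add x z _ _ hx hz => rw [add_mul, map_add, hx, hz, map_add, add_mul]
  | smul c x _ hx =>
    rw [smul_mul_assoc, map_smul, hx, map_smul, smul_eq_mul, smul_eq_mul]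
    ring


/-- the `O`-algebra hom `Hom_O(H, O) → Ω` induced by a character of the points. -/
def charDual (χ : WithConv (H →ₐ[O] Ω) →* Ω) : CRing O H O →ₐ[O] Ω where
  toFun φ := charExt hspan χ (mapR (Algebra.ofId O Ω) φ)
  map_one' := by rw [map_one, charExt_one]
  map_mul' φ ψ := by rw [map_mul, charExt_mul]
  map_zero' := by rw [map_zero, map_zero]
  map_add' φ ψ := by rw [map_add, map_add]
  commutes' o := by
    have h1 : algebraMap O (CRing O H O) o = o • (1 : CRing O H O) := by
      rw [Algebra.smul_def, mul_one]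
    rw [h1, mapR_smul, map_one, map_smul, charExt_one]
    simp [Algebra.ofId_apply]

theorem charDual_apply (χ : WithConv (H →ₐ[O] Ω) →* Ω) (φ : CRing O H O) :
    charDual hspan χ φ = charExt hspan χ (mapR (Algebra.ofId O Ω) φ) := rfl

variable [Module.Free O H] [Module.Finite O H]

theorem isIntegral_charDual (χ : WithConv (H →ₐ[O] Ω) →* Ω) (φ : CRing O H O) :
    IsIntegral O (charDual hspan χ φ) :=
  IsIntegral.map (charDual hspan χ) (IsIntegral.of_finite O φ)

include hspan in
/-- **Integrality of characters.**  Every multiplicative character of the monoid of points is an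
`O`-integral combination of the evaluation functions at a basis of `H`. -/
theorem exists_integral_coeffs {ι : Type*} [Fintype ι] (b : Module.Basis ι O H)
    (χ : WithConv (H →ₐ[O] Ω) →* Ω) :
    ∃ c : ι → Ω, (∀ i, IsIntegral O (c i)) ∧
      ∀ g : WithConv (H →ₐ[O] Ω), χ g = ∑ i, c i * g (b i) := by
  classical
  refine ⟨fun i => charDual hspan χ (toConv (b.coord i)), fun i => isIntegral_charDual hspan χ _,
    fun g => ?_⟩
  have hsum : (ptsHom g : CRing O H Ω) =
      ∑ i, g (b i) • mapR (Algebra.ofId O Ω) (toConv (b.coord i) : CRing O H O) := by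
    ext h
    have h2 : ((∑ i, g (b i) • mapR (Algebra.ofId O Ω) (toConv (b.coord i) : CRing O H O) :
        CRing O H Ω)) h = ∑ i, g (b i) * algebraMap O Ω (b.coord i h) := by
      have : ∀ (s : Finset ι) (F : ι → CRing O H Ω), (∑ i ∈ s, F i) h = ∑ i ∈ s, F i h := by
        intro s F
        induction s using Finset.induction_on with
        | empty => simp
        | insert a s ha ih =>
          rw [Finset.sum_insert ha, Finset.sum_insert ha, ← ih]
          rfl
      rw [this]
      refine Finset.sum_congr rfl fun i _ => ?_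
      rw [CRing.smul_apply, mapR_apply]
      rfl
    rw [h2, ptsHom_apply]
    conv_lhs => rw [← b.sum_repr h]
    rw [map_sum]
    refine Finset.sum_congr rfl fun i _ => ?_
    rw [map_smul, Algebra.smul_def, mul_comm]
    rfl
  rw [← charExt_ptsHom hspan χ g, hsum, map_sum]
  refine Finset.sum_congr rfl fun i _ => ?_
  rw [map_smul, smul_eq_mul, mul_comm]
  rfl

end Fermat.Agent.S56x.Flat.CharIntegral
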