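/-
P-S56, block (A) LOCAL FLAT, the `p = 3` block ("c-slot kill"), file 3 (owner: helper94).

**(UNR) for sub-quotients, character form.**  `H` a commutative cocommutative bialgebra, finite free
over `O`, whose `Ω`-points (`Ω` a field) span `Hom_O(H, Ω)`; the group of points is identified
additively with a finite abelian group `M` killed by `p` (as in the Prelude's `IsFlatAt`), with an
action `act` of a group `I` ("inertia") compatible with the action of `I` on `Ω`.
`M0 ≤ Mh ≤ M1` are subgroups such that `I` acts trivially on `Mh / M0` and through the cyclotomic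
exponent `a` on `M1 / Mh`.  Then every `s ∈ I` fixing the `p`-th roots of unity acts trivially on
`M1 / M0`.

The sub-quotient `M1 / M0` is NOT assumed to be the group of points of a flat group scheme: the
proof works with the characters of `M1 / M0` inside the ring of functions on `M1` spanned by the
evaluations `g ↦ g h` (`CSlotCore.eq_one_of_equivariant` + `CharIntegral.exists_integral_coeffs`).
Arithmetic inputs (hypotheses): `OT` = integers of the inertia field (a PID, `p`-adically
separated, with fraction field `Ω^I`), `𝔪` = the maximal ideal of the big valuation ring, with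
`𝔪 ∩ Ω^I = p · OT` (the inertia field is unramified) and `t c - c ∈ 𝔪` for integral `c`.
-/
import Mathlib
import Fermat.Agent.S56x.Flat.CSlotCore
import Fermat.Agent.S56x.Flat.CharIntegral

set_option autoImplicit false
set_option linter.unusedSectionVars false

noncomputable section

namespace Fermat.Agent.S56x.Flat.CSlot

open Fermat.Agent.S56x.Hopf WithConv Fermat.Agent.S56x.Flat.CSlotCore
  Fermat.Agent.S56x.Flat.CharIntegral

universe u v w

variable {O : Type u} {H : Type v} {Ω : Type w}
  [CommRing O] [CommRing H] [Bialgebra O H] [Coalgebra.IsCocomm O H]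
  [Field Ω] [Algebra O Ω]
  {I : Type*} [Group I] [MulSemiringAction I Ω] [SMulCommClass I O Ω]

/-- the action of `I` on points, through the coefficients. -/
def actPt (t : I) : WithConv (H →ₐ[O] Ω) →* WithConv (H →ₐ[O] Ω) :=
  mapPts (MulSemiringAction.toAlgHom O Ω t)

@[simp] theorem actPt_apply (t : I) (g : WithConv (H →ₐ[O] Ω)) (h : H) :
    actPt t g h = t • g h := rfl

theorem actPt_one (g : WithConv (H →ₐ[O] Ω)) : actPt (1 : I) g = g := by
  apply WithConv.ext
  apply AlgHom.ext
  intro h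
  show actPt (1 : I) g h = g h
  rw [actPt_apply, one_smul]

theorem actPt_mul (t t' : I) (g : WithConv (H →ₐ[O] Ω)) :
    actPt (t * t') g = actPt t (actPt t' g) := by
  apply WithConv.ext
  apply AlgHom.ext
  intro h
  show actPt (t * t') g h = actPt t (actPt t' g) h
  rw [actPt_apply, actPt_apply, actPt_apply, mul_smul]


section Main

variable [Module.Free O H] [Module.Finite O H]
variable {OT : Type*} [CommRing OT] [IsDomain OT] [IsPrincipalIdealRing OT] [Algebra OT Ω]

/-- **c-slot kill.** -/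
theorem cslot_kill
    (hspan : Submodule.span Ω (Set.range
      (ptsFamily : WithConv (H →ₐ[O] Ω) → CRing O H Ω)) = ⊤)
    (hinj : Function.Injective (algebraMap OT Ω))
    (hOT : ∀ (c : OT) (t : I), t • algebraMap OT Ω c = algebraMap OT Ω c)
    (hfrac : ∀ c : Ω, (∀ t : I, t • c = c) →
      ∃ d e : OT, d ≠ 0 ∧ algebraMap OT Ω d * c = algebraMap OT Ω e)
    (hO_OT : ∀ o : O, ∃ c : OT, algebraMap OT Ω c = algebraMap O Ω o)
    {p : ℕ} (hp : p.Prime) (hp2 : p ≠ 2) (hpΩ : (p : Ω) ≠ 0)
    (hsepT : ∀ c : OT, (∀ n : ℕ, (p : OT) ^ n ∣ c) → c = 0)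
    (𝔪 : Submodule OT Ω)
    (hF1 : ∀ c ∈ 𝔪, (∀ t : I, t • c = c) → ∃ d : OT, c = (p : Ω) * algebraMap OT Ω d)
    (hint : ∀ c : Ω, IsIntegral O c → ∀ t : I, t • c - c ∈ 𝔪)
    (h𝔪mul : ∀ c : Ω, IsIntegral O c → ∀ d ∈ 𝔪, c * d ∈ 𝔪)
    (hroots : HasEnoughRootsOfUnity Ω p)
    {M : Type*} [AddCommGroup M] [Finite M]
    (e : WithConv (H →ₐ[O] Ω) ≃ M) (he : ∀ f g, e (f * g) = e f + e g)
    (hMp : ∀ m : M, p • m = 0)
    (act : I → M → M)
    (hact : ∀ (t : I) (f g : WithConv (H →ₐ[O] Ω)), (∀ h : H, g h = t • f h) →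
      e g = act t (e f))
    (a : I → ℕ) (ha : ∀ (t : I) (ζ : Ω), ζ ^ p = 1 → t • ζ = ζ ^ a t)
    (M0 Mh M1 : AddSubgroup M) (hh1 : Mh ≤ M1)
    (h1 : ∀ (t : I), ∀ m ∈ Mh, act t m - m ∈ M0)
    (h2 : ∀ (t : I), ∀ m ∈ M1, act t m - a t • m ∈ Mh)
    (s : I) (hs : ∀ ζ : Ω, ζ ^ p = 1 → s • ζ = ζ) :
    ∀ m ∈ M1, act s m - m ∈ M0 := by
  classical
  -- basic transport facts
  have hact' : ∀ (t : I) (f : WithConv (H →ₐ[O] Ω)), e (actPt t f) = act t (e f) :=
    fun t f => hact t f (actPt t f) (fun h => rfl)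
  have e1 : e 1 = 0 := by
    have := he 1 1
    rw [mul_one] at this
    exact left_eq_add.mp this
  have epow : ∀ (g : WithConv (H →ₐ[O] Ω)) (k : ℕ), e (g ^ k) = k • e g := by
    intro g k
    induction k with
    | zero => rw [pow_zero, e1, zero_smul]
    | succ k ih => rw [pow_succ, he, ih, succ_nsmul]
  have fpow : ∀ g : WithConv (H →ₐ[O] Ω), g ^ p = 1 := by
    intro g
    apply e.injective
    rw [epow, hMp, e1]
  have act_add : ∀ (t : I) (m m' : M), act t (m + m') = act t m + act t m' := by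
    intro t m m'
    obtain ⟨f, rfl⟩ := e.surjective m
    obtain ⟨f', rfl⟩ := e.surjective m'
    rw [← he, ← hact', map_mul, he, hact', hact']
  have act_zero : ∀ t : I, act t 0 = 0 := by
    intro t
    have := act_add t 0 0
    rw [add_zero] at this
    exact left_eq_add.mp this
  have act_nsmul : ∀ (t : I) (k : ℕ) (m : M), act t (k • m) = k • act t m := by
    intro t k m
    induction k with
    | zero => rw [zero_smul, zero_smul, act_zero]
    | succ k ih => rw [succ_nsmul, act_add, ih, succ_nsmul]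
  have act_neg : ∀ (t : I) (m : M), act t (-m) = - act t m := by
    intro t m
    have := act_add t m (-m)
    rw [add_neg_cancel, act_zero] at this
    exact (neg_eq_of_add_eq_zero_right this.symm).symm
  have act_sub : ∀ (t : I) (m m' : M), act t (m - m') = act t m - act t m' := by
    intro t m m'
    rw [sub_eq_add_neg, act_add, act_neg, sub_eq_add_neg]
  have act_mul : ∀ (t t' : I) (m : M), act (t * t') m = act t (act t' m) := by
    intro t t' m
    obtain ⟨f, rfl⟩ := e.surjective m
    rw [← hact', actPt_mul, hact', hact']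
  have act_one : ∀ m : M, act 1 m = m := by
    intro m
    obtain ⟨f, rfl⟩ := e.surjective m
    rw [← hact', actPt_one]
  have hM1stab : ∀ (t : I), ∀ m ∈ M1, act t m ∈ M1 := by
    intro t m hm
    have h3 := hh1 (h2 t m hm)
    have h4 : act t m = (act t m - a t • m) + a t • m := by abel
    rw [h4]
    exact M1.add_mem h3 (M1.nsmul_mem hm _)
  -- primitive root and the exponent of `s⁻¹`
  obtain ⟨ζ0, hζ0⟩ := HasEnoughRootsOfUnity.exists_primitiveRoot Ω p
  have hpm1 : ∀ m : M, (p - 1) • m = -m := by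
    intro m
    have h3 : (p - 1) • m + m = 0 := by
      rw [← succ_nsmul, Nat.sub_add_cancel hp.one_le, hMp]
    exact eq_neg_of_add_eq_zero_left h3
  have hainv : ∀ m : M, a s⁻¹ • m = m := by
    intro m
    have h3 : ζ0 ^ a s⁻¹ = ζ0 := by
      have h4 := ha s⁻¹ ζ0 hζ0.pow_eq_one
      have h5 := congrArg (fun z => s • z) h4
      simp only [smul_inv_smul, smul_pow'] at h5
      rw [hs ζ0 hζ0.pow_eq_one] at h5
      exact h5.symm
    have hζ01 : ζ0 ≠ 1 := hζ0.ne_one hp.one_lt
    have hapos : 1 ≤ a s⁻¹ := by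
      rcases Nat.eq_zero_or_pos (a s⁻¹) with h0 | h0
      · rw [h0, pow_zero] at h3
        exact absurd h3.symm hζ01
      · exact h0
    have h8 : ζ0 ^ (a s⁻¹ - 1) = 1 := by
      have h9 : ζ0 ^ (a s⁻¹ - 1) * ζ0 = ζ0 := by
        rw [← pow_succ, Nat.sub_add_cancel hapos, h3]
      have hζ00 : ζ0 ≠ 0 := hζ0.ne_zero hp.ne_zero
      exact mul_right_cancel₀ hζ00 (by rw [h9, one_mul])
    obtain ⟨k, hk⟩ := (hζ0.pow_eq_one_iff_dvd _).mp h8
    have h10 : a s⁻¹ = p * k + 1 := by omega
    rw [h10, add_smul, one_smul, mul_comm, mul_smul, hMp, smul_zero, zero_add]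
  -- it suffices to treat `s⁻¹`
  suffices hkey : ∀ m ∈ M1, act s⁻¹ m - m ∈ M0 by
    intro m hm
    have h3 := hkey (act s m) (hM1stab s m hm)
    rw [← act_mul, inv_mul_cancel, act_one] at h3
    have : act s m - m = -(m - act s m) := by abel
    rw [this]
    exact M0.neg_mem h3
  by_contra hcon
  push Not at hcon
  obtain ⟨m0, hm0, hm0n⟩ := hcon
  -- the quotient group and a character detecting `act s⁻¹ m0 - m0`
  have hGpow : ∀ g : Multiplicative (M ⧸ M0), g ^ p = 1 := by
    intro g
    obtain ⟨m, rfl⟩ := QuotientAddGroup.mk_surjective (Multiplicative.toAdd g)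
    |> fun ⟨m, hm⟩ => (⟨m, by rw [← ofAdd_toAdd g, ← hm]⟩ :
        ∃ m : M, g = Multiplicative.ofAdd (QuotientAddGroup.mk m : M ⧸ M0))
    rw [← ofAdd_nsmul, ← QuotientAddGroup.mk_nsmul, hMp]
    rfl
  have hGexp : Monoid.exponent (Multiplicative (M ⧸ M0)) ∣ p :=
    Monoid.exponent_dvd_of_forall_pow_eq_one hGpow
  have : NeZero p := ⟨hp.ne_zero⟩
  have : HasEnoughRootsOfUnity Ω (Monoid.exponent (Multiplicative (M ⧸ M0))) :=
    HasEnoughRootsOfUnity.of_dvd Ω hGexp
  have hy0 : Multiplicative.ofAdd (QuotientAddGroup.mk (act s⁻¹ m0 - m0) : M ⧸ M0) ≠ 1 := by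
    intro h3
    apply hm0n
    have h4 : (QuotientAddGroup.mk (act s⁻¹ m0 - m0) : M ⧸ M0) = 0 := by
      simpa using congrArg Multiplicative.toAdd h3
    exact (QuotientAddGroup.eq_zero_iff _).mp h4
  obtain ⟨φ, hφ⟩ := CommGroup.exists_apply_ne_one_of_hasEnoughRootsOfUnity
    (Multiplicative (M ⧸ M0)) Ω hy0
  let πV : WithConv (H →ₐ[O] Ω) →* Multiplicative (M ⧸ M0) :=
    { toFun := fun f => Multiplicative.ofAdd (QuotientAddGroup.mk (e f) : M ⧸ M0)
      map_one' := by rw [e1]; rfl
      map_mul' := fun f g => by rw [he]; rfl }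
  let χ : WithConv (H →ₐ[O] Ω) →* Ω := (Units.coeHom Ω).comp (φ.comp πV)
  have hχdef : ∀ f, χ f = (φ (Multiplicative.ofAdd (QuotientAddGroup.mk (e f) : M ⧸ M0)) : Ω) :=
    fun f => rfl
  have hχp : ∀ f, χ f ^ p = 1 := by
    intro f
    rw [← map_pow, fpow, map_one]
  let χ' : WithConv (H →ₐ[O] Ω) →* Ω := χ ^ (p - 1)
  have hχ'def : ∀ f, χ' f = χ f ^ (p - 1) := fun f => rfl
  have hχχ' : ∀ f, χ f * χ' f = 1 := by
    intro f
    rw [hχ'def, ← pow_succ', Nat.sub_add_cancel hp.one_le, hχp]
  -- integral coefficients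
  let b := Module.Free.chooseBasis O H
  obtain ⟨c, hc, hχc⟩ := exists_integral_coeffs hspan b χ
  obtain ⟨c', hc', hχc'⟩ := exists_integral_coeffs hspan b χ'
  -- the `I`-set `X` of points in `M1`
  let X := {f : WithConv (H →ₐ[O] Ω) // e f ∈ M1}
  let instX : MulAction I X :=
    { smul := fun t f => ⟨actPt t f.1, by rw [hact']; exact hM1stab t _ f.2⟩
      one_smul := fun f => Subtype.ext (actPt_one f.1)
      mul_smul := fun t t' f => Subtype.ext (actPt_mul t t' f.1) }
  have hsmulX : ∀ (t : I) (f : X), (t • f).1 = actPt t f.1 := fun t f => rfl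
  let aa : Module.Free.ChooseBasisIndex O H → X → Ω := fun i f => f.1 (b i)
  have haa : ∀ i, IsEquivariant I (aa i) := fun i t f => rfl
  let x : X → Ω := fun f => (s • χ (actPt s⁻¹ f.1)) * χ' f.1
  -- `s` fixes the values of `χ`
  have hsχ : ∀ g, s • χ g = χ g := fun g => hs _ (hχp g)
  -- the M-side description of `x`
  have hxφ : ∀ f : X, x f =
      (φ (Multiplicative.ofAdd (QuotientAddGroup.mk (act s⁻¹ (e f.1) - e f.1) : M ⧸ M0)) : Ω) := by
    intro f
    show (s • χ (actPt s⁻¹ f.1)) * χ' f.1 = _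
    rw [hsχ, hχ'def, ← map_pow, ← map_mul, hχdef, he, epow, hact', hpm1, ← sub_eq_add_neg]
  -- evaluation functions lie in the `OT`-span of the `aa i`
  choose oT hoT using hO_OT
  have hevf : ∀ (h : H) (f : X), f.1 h = ∑ i, algebraMap O Ω (b.repr h i) * f.1 (b i) := by
    intro h f
    conv_lhs => rw [← b.sum_repr h]
    rw [map_sum]
    refine Finset.sum_congr rfl fun i _ => ?_
    rw [map_smul, Algebra.smul_def]
  have hev : ∀ h : H, (fun f : X => f.1 h) ∈ Submodule.span OT (Set.range aa) := by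
    intro h
    have h3 : (fun f : X => f.1 h) = ∑ i, oT (b.repr h i) • aa i := by
      funext f
      rw [hevf h f, Finset.sum_apply]
      refine Finset.sum_congr rfl fun i _ => ?_
      rw [Pi.smul_apply, Algebra.smul_def, hoT]
    rw [h3]
    exact Submodule.sum_mem _ fun i _ => Submodule.smul_mem _ _ (Submodule.subset_span ⟨i, rfl⟩)
  have hone : (1 : X → Ω) ∈ Submodule.span OT (Set.range aa) := by
    have h3 : (1 : X → Ω) = fun f : X => f.1 (1 : H) := by
      funext f
      rw [Pi.one_apply, map_one]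
    rw [h3]
    exact hev 1
  have hmul : ∀ F G : X → Ω, F ∈ Submodule.span OT (Set.range aa) →
      G ∈ Submodule.span OT (Set.range aa) → F * G ∈ Submodule.span OT (Set.range aa) := by
    intro F G hF hG
    induction hF using Submodule.span_induction with
    | mem F hF =>
      obtain ⟨i, rfl⟩ := hF
      induction hG using Submodule.span_induction with
      | mem G hG =>
        obtain ⟨k, rfl⟩ := hG
        have h3 : aa i * aa k = fun f : X => f.1 (b i * b k) := by
          funext f
          rw [Pi.mul_apply, map_mul]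
        rw [h3]
        exact hev _
      | zero => rw [mul_zero]; exact Submodule.zero_mem _
      | add G G' _ _ hG hG' => rw [mul_add]; exact Submodule.add_mem _ hG hG'
      | smul o G _ hG => rw [mul_smul_comm]; exact Submodule.smul_mem _ _ hG
    | zero => rw [zero_mul]; exact Submodule.zero_mem _
    | add F F' _ _ hF hF' => rw [add_mul]; exact Submodule.add_mem _ hF hF'
    | smul o F _ hF => rw [smul_mul_assoc]; exact Submodule.smul_mem _ _ hF
  -- `x ^ p = 1`
  have hxp : x ^ p = 1 := by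
    funext f
    rw [Pi.pow_apply, Pi.one_apply, hxφ, ← Units.val_pow_eq_pow_val, ← map_pow, hGpow, map_one,
      Units.val_one]
  -- equivariance of `x`
  have hxeq : IsEquivariant I x := by
    intro t f
    rw [hxφ, hxφ, hsmulX, hact']
    set m := e f.1 with hm
    have hmM1 : m ∈ M1 := f.2
    set v := act t m - a t • m with hv
    have hvh : v ∈ Mh := h2 t m hmM1
    have h3 : act t m = v + a t • m := by rw [hv]; abel
    have h4 : act s⁻¹ (act t m) - act t m =
        (act s⁻¹ v - v) + a t • (act s⁻¹ m - m) := by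
      rw [h3, act_add, act_nsmul, smul_sub]
      abel
    have h5 : (QuotientAddGroup.mk (act s⁻¹ (act t m) - act t m) : M ⧸ M0) =
        a t • (QuotientAddGroup.mk (act s⁻¹ m - m) : M ⧸ M0) := by
      rw [h4, QuotientAddGroup.mk_add, QuotientAddGroup.mk_nsmul,
        (QuotientAddGroup.eq_zero_iff _).mpr (h1 s⁻¹ v hvh), zero_add]
    rw [h5, ofAdd_nsmul, map_pow, Units.val_pow_eq_pow_val]
    symm
    apply ha
    rw [← Units.val_pow_eq_pow_val, ← map_pow, hGpow, map_one, Units.val_one]
  -- `x ≡ 1` modulo `𝔪 · span`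
  have hxm : ∃ D : Module.Free.ChooseBasisIndex O H → Ω, (∀ l, D l ∈ 𝔪) ∧
      x - 1 = ∑ l, D l • aa l := by
    set d : Module.Free.ChooseBasisIndex O H → Ω := fun i => s • c i - c i with hd
    have hdm : ∀ i, d i ∈ 𝔪 := fun i => hint (c i) (hc i) s
    refine ⟨fun l => ∑ i, ∑ k, d i * (c' k * algebraMap O Ω (b.repr (b i * b k) l)), ?_, ?_⟩
    · intro l
      refine Submodule.sum_mem _ fun i _ => Submodule.sum_mem _ fun k _ => ?_
      rw [mul_comm]
      exact h𝔪mul _ ((hc' k).mul isIntegral_algebraMap) _ (hdm i)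
    · funext f
      have hA : s • χ (actPt s⁻¹ f.1) = ∑ i, (s • c i) * f.1 (b i) := by
        rw [hχc, Finset.smul_sum]
        refine Finset.sum_congr rfl fun i _ => ?_
        rw [smul_mul', actPt_apply, smul_inv_smul]
      have hB : χ f.1 = ∑ i, c i * f.1 (b i) := hχc _
      have hC : χ' f.1 = ∑ k, c' k * f.1 (b k) := hχc' _
      have hAB : s • χ (actPt s⁻¹ f.1) - χ f.1 = ∑ i, d i * f.1 (b i) := by
        rw [hA, hB, ← Finset.sum_sub_distrib]
        refine Finset.sum_congr rfl fun i _ => ?_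
        rw [hd, sub_mul]
      have hx1 : x f - 1 = (s • χ (actPt s⁻¹ f.1) - χ f.1) * χ' f.1 := by
        rw [sub_mul, hχχ']
      rw [Pi.sub_apply, Pi.one_apply, hx1, hAB, hC, Finset.sum_apply]
      simp only [Pi.smul_apply, smul_eq_mul]
      rw [Finset.sum_mul_sum]
      have hterm : ∀ i k, d i * f.1 (b i) * (c' k * f.1 (b k)) =
          ∑ l, d i * (c' k * algebraMap O Ω (b.repr (b i * b k) l)) * f.1 (b l) := by
        intro i k
        have h3 : f.1 (b i) * f.1 (b k) = f.1 (b i * b k) := (map_mul _ _ _).symm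
        have h4 : d i * f.1 (b i) * (c' k * f.1 (b k)) = d i * c' k * (f.1 (b i) * f.1 (b k)) := by
          ring
        rw [h4, h3, hevf (b i * b k) f, Finset.mul_sum]
        refine Finset.sum_congr rfl fun l _ => ?_
        show d i * c' k * (algebraMap O Ω (b.repr (b i * b k) l) * f.1 (b l)) = _
        ring
      simp only [hterm]
      simp only [Finset.sum_mul]
      symm
      rw [Finset.sum_comm]
      refine Finset.sum_congr rfl fun i _ => ?_
      rw [Finset.sum_comm]
  -- apply the core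
  have hx1 : x = 1 := eq_one_of_equivariant hinj hOT hfrac hp hp2 hpΩ hsepT 𝔪 hF1 aa haa hone hmul
    x hxeq hxm hxp
  -- evaluate at the point of `m0`
  have hf0 : e (e.symm m0) ∈ M1 := by rw [e.apply_symm_apply]; exact hm0
  have h3 := congrFun hx1 ⟨e.symm m0, hf0⟩
  rw [hxφ, Pi.one_apply] at h3
  simp only [e.apply_symm_apply] at h3
  apply hφ
  exact Units.ext h3

end Main

end Fermat.Agent.S56x.Flat.CSlot
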