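/-
P-S56, block (A) LOCAL FLAT, the `p = 3` block, file 4 (owner: helper94).

The points of a finite free commutative Hopf algebra `H` over `O` with values in an algebraically
closed field `Ω` of characteristic zero SPAN the convolution algebra `Hom_O(H, Ω)`: hypothesis
`hspan` of `CharIntegral.exists_integral_coeffs` and `CSlot.cslot_kill`, from Cartier's theorem
(`Flat/Cartier`) applied to the Hopf algebra `Ω ⊗[O] H` over `Ω`.
-/
import Mathlib
import Fermat.Agent.S56x.Flat.Cartier
import Fermat.Agent.S56x.Flat.CharIntegral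

set_option autoImplicit false
set_option linter.unusedSectionVars false

noncomputable section

namespace Fermat.Agent.S56x.Flat.CSlotSpan

open Fermat.Agent.S56x.Hopf WithConv Fermat.Agent.S56x.Flat.CharIntegral TensorProduct

universe u v w

variable {O : Type u} {H : Type v} {Ω : Type w}
  [CommRing O] [CommRing H] [HopfAlgebra O H] [Coalgebra.IsCocomm O H]
  [Module.Free O H] [Module.Finite O H]
  [Field Ω] [Algebra O Ω] [CharZero Ω] [IsAlgClosed Ω]

/-- the `Ω`-point of `Ω ⊗[O] H` gives a point of `H`. -/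
def restrictPt (F : Ω ⊗[O] H →ₐ[Ω] Ω) : H →ₐ[O] Ω :=
  (F.restrictScalars O).comp (Algebra.TensorProduct.includeRight : H →ₐ[O] Ω ⊗[O] H)

theorem restrictPt_apply (F : Ω ⊗[O] H →ₐ[Ω] Ω) (h : H) :
    restrictPt F h = F ((1 : Ω) ⊗ₜ[O] h) := rfl

/-- **points separate `Ω ⊗ H`** (Cartier), coordinate form. -/
theorem coeff_eq_zero_of_forall_point {ι : Type*} [Fintype ι] (b : Module.Basis ι O H)
    (c : ι → Ω) (h : ∀ g : H →ₐ[O] Ω, ∑ i, c i * g (b i) = 0) : c = 0 := by
  classical
  set z : Ω ⊗[O] H := ∑ i, c i ⊗ₜ[O] b i with hz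
  have hz0 : z = 0 := by
    refine Cartier.eq_of_forall_point_eq Ω (Ω ⊗[O] H) Ω (fun F => ?_)
    rw [map_zero, hz, map_sum]
    have h1 : ∀ i, F (c i ⊗ₜ[O] b i) = c i * restrictPt F (b i) := by
      intro i
      have h2 : c i ⊗ₜ[O] b i = c i • ((1 : Ω) ⊗ₜ[O] b i) := by
        rw [TensorProduct.smul_tmul', smul_eq_mul, mul_one]
      rw [h2, map_smul, smul_eq_mul, restrictPt_apply]
    simp only [h1]
    exact h (restrictPt F)
  have hb : ∀ i, c i ⊗ₜ[O] b i = c i • (b.baseChange Ω) i := by
    intro i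
    rw [Module.Basis.baseChange_apply, TensorProduct.smul_tmul', smul_eq_mul, mul_one]
  rw [hz] at hz0
  simp only [hb] at hz0
  have hli := (b.baseChange Ω).linearIndependent
  rw [Fintype.linearIndependent_iff] at hli
  funext i
  exact hli c hz0 i

/-- **the points span `Hom_O(H, Ω)`.** -/
theorem span_ptsFamily_eq_top :
    Submodule.span Ω (Set.range
      (ptsFamily : WithConv (H →ₐ[O] Ω) → CRing O H Ω)) = ⊤ := by
  classical
  by_contra hne
  have hlt : Submodule.span Ω (Set.range
      (ptsFamily : WithConv (H →ₐ[O] Ω) → CRing O H Ω)) < ⊤ := lt_top_iff_ne_top.mpr hne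
  obtain ⟨lam, hlam0, hlam⟩ := Submodule.exists_le_ker_of_lt_top _ hlt
  let b := Module.Free.chooseBasis O H
  -- the dual basis vectors of `Hom_O(H, Ω)`
  let eps : Module.Free.ChooseBasisIndex O H → CRing O H Ω :=
    fun i => (coordEquiv (B := Ω) b).symm (Pi.single i 1)
  have hdecomp : ∀ f : CRing O H Ω, f = ∑ i, f (b i) • eps i := by
    intro f
    apply (coordEquiv (B := Ω) b).injective
    rw [map_sum]
    funext j
    simp only [map_smul, eps, LinearEquiv.apply_symm_apply, Finset.sum_apply, Pi.smul_apply,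
      Pi.single_apply, smul_eq_mul, mul_ite, mul_one, mul_zero, coordEquiv_apply]
    rw [Finset.sum_ite_eq Finset.univ j]
    simp
  have hc : (fun i => lam (eps i)) = 0 := by
    refine coeff_eq_zero_of_forall_point b _ (fun g => ?_)
    have h1 : lam (ptsHom (toConv g)) = 0 := by
      have : ptsHom (toConv g) ∈ LinearMap.ker lam :=
        hlam (Submodule.subset_span ⟨toConv g, rfl⟩)
      exact this
    rw [hdecomp (ptsHom (toConv g)), map_sum] at h1
    rw [← h1]
    refine Finset.sum_congr rfl fun i _ => ?_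
    rw [map_smul, smul_eq_mul, mul_comm]
    rfl
  apply hlam0
  ext f
  rw [hdecomp f, map_sum, LinearMap.zero_apply]
  refine Finset.sum_eq_zero fun i _ => ?_
  rw [map_smul, congrFun hc i]
  simp

end Fermat.Agent.S56x.Flat.CSlotSpan
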