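import Fermat.Prelude.Def_GaloisRep_Flat
import Fermat.Agent.S56x.Flat.PointsSeparate

/-!
# P-S56, block (A): entry point from the Prelude's `IsFlatAt` to the hypotheses of Fontaine's
Theorem A

The frozen `GaloisRepAdic.IsFlatAt ρ p` provides, for every ideal `I` of finite index, a finite
flat cocommutative Hopf algebra `H` over `ℤ_(p) = GaloisRep.ratLocalizedAt p` whose group of
`ℚ̄`-points is (Galois-equivariantly, additively) `V / I V`.  If `n ∈ I` then `V / I V` is killed
by `n`, hence (Cartier's theorem on the generic fibre) `H` is killed by `n` as a group scheme and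
`n • Ω[H⁄ℤ_(p)] = 0` — hypothesis (a) of Fontaine's Theorem A.
-/

set_option autoImplicit false

noncomputable section

open TensorProduct KaehlerDifferential WithConv

namespace Fermat.Agent.S56x.Flat.Entry

open Fermat.Agent.Lib.HopfDiff

theorem algebraMap_ratLocalizedAt_injective (p : ℕ) :
    Function.Injective (algebraMap (GaloisRep.ratLocalizedAt p) ℚ) :=
  Subtype.val_injective

variable {A : Type} [CommRing A] [IsLocalRing A]

/-- `V / I V` is killed by every natural number whose image in `A` lies in `I`. -/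
theorem nsmul_quotient_eq_zero (ρ : GaloisRepAdic A) (I : Ideal A) (n : ℕ) (hn : (n : A) ∈ I)
    (m : ρ.V ⧸ (I • (⊤ : Submodule A ρ.V))) : n • m = 0 := by
  obtain ⟨v, rfl⟩ := Submodule.Quotient.mk_surjective _ m
  rw [← Submodule.Quotient.mk_smul, Submodule.Quotient.mk_eq_zero, ← Nat.cast_smul_eq_nsmul A]
  exact Submodule.smul_mem_smul hn Submodule.mem_top

/-- **Entry point.**  The Hopf algebra provided by `IsFlatAt` at an ideal `I` of finite index
containing (the image of) `n` is killed by `n`, and `n` kills its Kähler differentials. -/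
theorem exists_hopf_killedBy (ρ : GaloisRepAdic A) (p : ℕ) (hρ : ρ.IsFlatAt p) (I : Ideal A)
    (hI : Finite (A ⧸ I)) (n : ℕ) (hn : (n : A) ∈ I) :
    ∃ (H : Type) (_ : CommRing H) (_ : HopfAlgebra (GaloisRep.ratLocalizedAt p) H),
      Module.Finite (GaloisRep.ratLocalizedAt p) H ∧
      Module.Flat (GaloisRep.ratLocalizedAt p) H ∧
      Coalgebra.IsCocomm (GaloisRep.ratLocalizedAt p) H ∧
      KilledBy (GaloisRep.ratLocalizedAt p) H n ∧
      (∀ w : Ω[H⁄GaloisRep.ratLocalizedAt p], n • w = 0) ∧
      ∃ e : WithConv (H →ₐ[GaloisRep.ratLocalizedAt p] AlgebraicClosure ℚ) ≃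
          (ρ.V ⧸ (I • (⊤ : Submodule A ρ.V))),
        (∀ f g : WithConv (H →ₐ[GaloisRep.ratLocalizedAt p] AlgebraicClosure ℚ),
          e (f * g) = e f + e g) ∧
        ∀ (σ : AlgebraicClosure ℚ ≃ₐ[ℚ] AlgebraicClosure ℚ)
          (f g : WithConv (H →ₐ[GaloisRep.ratLocalizedAt p] AlgebraicClosure ℚ)),
          (∀ h : H, g h = σ (f h)) → e g = ρ.levelAction I σ (e f) := by
  obtain ⟨H, iC, iH, hfin, hflat, hco, e, he, heq⟩ := hρ.2 I hI
  have hk : KilledBy (GaloisRep.ratLocalizedAt p) H n :=
    PointsSeparate.killedBy_of_addEquiv ℚ (AlgebraicClosure ℚ)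
      (algebraMap_ratLocalizedAt_injective p) n e he (nsmul_quotient_eq_zero ρ I n hn)
  exact ⟨H, iC, iH, hfin, hflat, hco, hk, hk.nsmul_omega_eq_zero, e, he, heq⟩

end Fermat.Agent.S56x.Flat.Entry
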