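/-
P-S56, block (A) LOCAL FLAT, the `p = 3` block ("c-slot kill"), GLOBAL FORM (owner: helper94).

`Flat/CSlot.cslot_kill` with ALL arithmetic hypotheses discharged, for
`Ω = Qbar = AlgebraicClosure ℚ`, `O = ℤ_(p) = GaloisRep.ratLocalizedAt p`, `P` a valuation subring
of `Qbar` over the odd prime `p` and `I = P.inertiaSubgroupIn ℚ`.  The data
`(H, e, he, hact)` are exactly those of the Prelude's `GaloisRepAdic.IsFlatAt`.

`M0 ≤ Mh ≤ M1` subgroups of the group of points `M` (killed by `p`) such that inertia acts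
trivially on `Mh / M0` and through the mod `p` cyclotomic character on `M1 / Mh`.  Then every
element of inertia fixing the `p`-th roots of unity acts trivially on `M1 / M0`.
-/
import Mathlib
import Fermat.Prelude.Def_GaloisRep_Flat
import Fermat.Agent.S28.Gauss
import Fermat.Agent.S56x.Flat.CSlot
import Fermat.Agent.S56x.Flat.CSlotSpan
import Fermat.Agent.S56x.Flat.InertiaField
import Fermat.Agent.S56x.Flat.FlatEntry

set_option autoImplicit false
set_option linter.unusedVariables false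
set_option linter.unusedSectionVars false
set_option linter.style.haveILetI false

noncomputable section

namespace Fermat.Agent.S56x.Flat.CSlotGlobal

open Fermat.Agent.Lib Fermat.Agent.S56x.Hens Fermat.Agent.S56x.Flat.InertiaField
  Fermat.Agent.S56x.Flat.CSlot Fermat.Agent.S56x.Flat.CSlotSpan WithConv

local notation "Qbar" => AlgebraicClosure ℚ
local notation "Γℚ" => (AlgebraicClosure ℚ ≃ₐ[ℚ] AlgebraicClosure ℚ)

/-- **c-slot kill, global form** (cyclotomic exponent given as a function). -/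
theorem cslot_kill_global (P : ValuationSubring Qbar) {p : ℕ} [hpF : Fact p.Prime] (hp2 : p ≠ 2)
    (hP : P.LiesOverPrime p)
    {H : Type} [CommRing H] [HopfAlgebra (GaloisRep.ratLocalizedAt p) H]
    [Module.Finite (GaloisRep.ratLocalizedAt p) H] [Module.Flat (GaloisRep.ratLocalizedAt p) H]
    [Coalgebra.IsCocomm (GaloisRep.ratLocalizedAt p) H]
    {M : Type*} [AddCommGroup M] [Finite M]
    (e : WithConv (H →ₐ[GaloisRep.ratLocalizedAt p] Qbar) ≃ M)
    (he : ∀ f g : WithConv (H →ₐ[GaloisRep.ratLocalizedAt p] Qbar), e (f * g) = e f + e g)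
    (hMp : ∀ m : M, p • m = 0)
    (act : Γℚ → M → M)
    (hact : ∀ (σ : Γℚ) (f g : WithConv (H →ₐ[GaloisRep.ratLocalizedAt p] Qbar)),
      (∀ h : H, g h = σ (f h)) → e g = act σ (e f))
    (a : Γℚ → ℕ)
    (ha : ∀ t ∈ P.inertiaSubgroupIn ℚ, ∀ ζ : Qbar, ζ ^ p = 1 → t ζ = ζ ^ a t)
    (M0 Mh M1 : AddSubgroup M) (hh1 : Mh ≤ M1)
    (h1 : ∀ t ∈ P.inertiaSubgroupIn ℚ, ∀ m ∈ Mh, act t m - m ∈ M0)
    (h2 : ∀ t ∈ P.inertiaSubgroupIn ℚ, ∀ m ∈ M1, act t m - a t • m ∈ Mh)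
    (s : Γℚ) (hsI : s ∈ P.inertiaSubgroupIn ℚ) (hs : ∀ ζ : Qbar, ζ ^ p = 1 → s ζ = ζ) :
    ∀ m ∈ M1, act s m - m ∈ M0 := by
  have hp : p.Prime := hpF.out
  haveI : Module.Free (GaloisRep.ratLocalizedAt p) H := Module.free_of_flat_of_isLocalRing
  haveI : IsDiscreteValuationRing (inertiaInt P) := isDiscreteValuationRing_inertiaInt P hp hP
  haveI : NeZero p := ⟨hp.ne_zero⟩
  have hpQ : ((p : ℕ) : Qbar) ≠ 0 := natCast_ne_zero_Qbar P hp hP
  refine cslot_kill (O := GaloisRep.ratLocalizedAt p) (H := H) (Ω := Qbar)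
    (I := ↥(P.inertiaSubgroupIn ℚ)) (OT := inertiaInt P)
    span_ptsFamily_eq_top
    Subtype.val_injective
    (fun c t => c.2.2 t t.2)
    ?hfrac ?hO_OT hp hp2 hpQ
    (fun c hc => eq_zero_of_forall_pow_dvd P hp hP c hc)
    (nonunitsSubmodule P)
    ?hF1 ?hint ?hmul
    inferInstance
    e he hMp (fun t => act (t : Γℚ))
    (fun t f g hfg => hact (t : Γℚ) f g hfg)
    (fun t => a (t : Γℚ))
    (fun t ζ hζ => ha (t : Γℚ) t.2 ζ hζ)
    M0 Mh M1 hh1
    (fun t m hm => h1 (t : Γℚ) t.2 m hm)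
    (fun t m hm => h2 (t : Γℚ) t.2 m hm)
    ⟨s, hsI⟩ hs
  case hfrac =>
    intro c hc
    obtain ⟨d, e', hd, hde⟩ := exists_mul_eq_of_fixed P c (fun t ht => hc ⟨t, ht⟩)
    exact ⟨d, e', hd, hde⟩
  case hO_OT =>
    intro o
    refine ⟨⟨algebraMap (GaloisRep.ratLocalizedAt p) Qbar o, ratLocalizedAt_mem P hp hP o, ?_⟩, rfl⟩
    intro t ht
    exact t.commutes (o : ℚ)
  case hF1 =>
    intro c hc hfix
    have hc' : c ∈ P.nonunits := hc
    obtain ⟨d, hd⟩ := natCast_dvd_of_mem_nonunits P hp hP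
      ⟨c, P.nonunits_subset hc', fun t ht => hfix ⟨t, ht⟩⟩ hc'
    refine ⟨d, ?_⟩
    show c = (p : Qbar) * (d : Qbar)
    have := congrArg (fun z : inertiaInt P => (z : Qbar)) hd
    simpa using this
  case hint =>
    intro c hc t
    have hcP : c ∈ P := mem_of_isIntegral_ratLocalizedAt P hp hP hc
    exact ((mem_inertiaSubgroupIn_iff P (t : Γℚ)).mp t.2).2 c hcP
  case hmul =>
    intro c hc d hd
    have hcP : c ∈ P := mem_of_isIntegral_ratLocalizedAt P hp hP hc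
    show c * d ∈ P.nonunits
    rw [mul_comm]
    exact mul_mem_nonunits_of_mem P hd hcP

/-- **c-slot kill, global form** (no choice of cyclotomic exponent: the hypothesis on `M1 / Mh`
is asked for every exponent `a` describing the action of `t` on the `p`-th roots of unity). -/
theorem cslot_kill_global' (P : ValuationSubring Qbar) {p : ℕ} [hpF : Fact p.Prime] (hp2 : p ≠ 2)
    (hP : P.LiesOverPrime p)
    {H : Type} [CommRing H] [HopfAlgebra (GaloisRep.ratLocalizedAt p) H]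
    [Module.Finite (GaloisRep.ratLocalizedAt p) H] [Module.Flat (GaloisRep.ratLocalizedAt p) H]
    [Coalgebra.IsCocomm (GaloisRep.ratLocalizedAt p) H]
    {M : Type*} [AddCommGroup M] [Finite M]
    (e : WithConv (H →ₐ[GaloisRep.ratLocalizedAt p] Qbar) ≃ M)
    (he : ∀ f g : WithConv (H →ₐ[GaloisRep.ratLocalizedAt p] Qbar), e (f * g) = e f + e g)
    (hMp : ∀ m : M, p • m = 0)
    (act : Γℚ → M → M)
    (hact : ∀ (σ : Γℚ) (f g : WithConv (H →ₐ[GaloisRep.ratLocalizedAt p] Qbar)),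
      (∀ h : H, g h = σ (f h)) → e g = act σ (e f))
    (M0 Mh M1 : AddSubgroup M) (hh1 : Mh ≤ M1)
    (h1 : ∀ t ∈ P.inertiaSubgroupIn ℚ, ∀ m ∈ Mh, act t m - m ∈ M0)
    (h2 : ∀ t ∈ P.inertiaSubgroupIn ℚ, ∀ a : ℕ, (∀ ζ : Qbar, ζ ^ p = 1 → t ζ = ζ ^ a) →
      ∀ m ∈ M1, act t m - a • m ∈ Mh)
    (s : Γℚ) (hsI : s ∈ P.inertiaSubgroupIn ℚ) (hs : ∀ ζ : Qbar, ζ ^ p = 1 → s ζ = ζ) :
    ∀ m ∈ M1, act s m - m ∈ M0 := by
  have hp : p.Prime := hpF.out
  have hex := fun t : Γℚ => exists_cyclotomic_exponent P hp hP t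
  exact cslot_kill_global P hp2 hP e he hMp act hact (fun t => Classical.choose (hex t))
    (fun t _ => Classical.choose_spec (hex t)) M0 Mh M1 hh1 h1
    (fun t ht m hm => h2 t ht _ (Classical.choose_spec (hex t)) m hm) s hsI hs

/-- **c-slot kill for the Prelude's `IsFlatAt`.**  `ρ` flat at the odd prime `p`, `I` an ideal of
finite index containing `p`, `P` a place of `Qbar` over `p`; `M0 ≤ Mh ≤ M1` subgroups of `V / I V`
such that the inertia subgroup of `P` acts trivially on `Mh / M0` and through the mod `p`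
cyclotomic character on `M1 / Mh`.  Then every element of the inertia subgroup of `P` fixing the
`p`-th roots of unity acts trivially on `M1 / M0`. -/
theorem cslot_kill_isFlatAt {A : Type} [CommRing A] [IsLocalRing A] (ρ : GaloisRepAdic A)
    {p : ℕ} [hpF : Fact p.Prime] (hp2 : p ≠ 2) (hρ : ρ.IsFlatAt p) (I : Ideal A)
    (hI : Finite (A ⧸ I)) (hpI : (p : A) ∈ I)
    (P : ValuationSubring Qbar) (hP : P.LiesOverPrime p)
    (M0 Mh M1 : AddSubgroup (ρ.V ⧸ (I • (⊤ : Submodule A ρ.V)))) (hh1 : Mh ≤ M1)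
    (h1 : ∀ t ∈ P.inertiaSubgroupIn ℚ, ∀ m ∈ Mh, ρ.levelAction I t m - m ∈ M0)
    (h2 : ∀ t ∈ P.inertiaSubgroupIn ℚ, ∀ a : ℕ, (∀ ζ : Qbar, ζ ^ p = 1 → t ζ = ζ ^ a) →
      ∀ m ∈ M1, ρ.levelAction I t m - a • m ∈ Mh)
    (s : Γℚ) (hsI : s ∈ P.inertiaSubgroupIn ℚ) (hs : ∀ ζ : Qbar, ζ ^ p = 1 → s ζ = ζ) :
    ∀ m ∈ M1, ρ.levelAction I s m - m ∈ M0 := by
  obtain ⟨H, iC, iH, hfin, hflat, hco, e, he, heq⟩ := hρ.2 I hI
  haveI := hfin
  haveI := hflat
  haveI := hco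
  haveI : Module.Finite (A ⧸ I) (ρ.V ⧸ (I • (⊤ : Submodule A ρ.V))) := inferInstance
  haveI : Finite (ρ.V ⧸ (I • (⊤ : Submodule A ρ.V))) := Module.finite_of_finite (A ⧸ I)
  exact cslot_kill_global' P hp2 hP e he (Entry.nsmul_quotient_eq_zero ρ I p hpI)
    (fun σ m => ρ.levelAction I σ m) heq M0 Mh M1 hh1 h1 h2 s hsI hs

end Fermat.Agent.S56x.Flat.CSlotGlobal
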