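import Mathlib
import Fermat.Agent.S56x.Flat.CSlot
import Fermat.Agent.S56x.Flat.CSlotSpan
import Fermat.Agent.S56x.Local.UnrIntOmega

/-!
helper9 (P-S56, block (A) LOCAL FLAT): **c-slot kill on the complete side**, all arithmetic
hypotheses of `Flat/CSlot.cslot_kill` (helper94) discharged for `Ω = PadicAlgCl p`, `O = ℤ_[p]`,
`I = ↥(LocalInertia.localInertia' p)` (helper3), `OT = UnrIntOmega.unrInt p` (the integers of the
maximal unramified extension, a DVR with uniformiser `p`), `𝔪 =` the open unit ball, and `hspan`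
from `Flat/CSlotSpan.span_ptsFamily_eq_top`.

The data `(H, e, he, hact)` are those produced by
`Fontaine/LocalPoints.exists_local_hopf_of_isFlatAt` from the Prelude's `IsFlatAt`.
-/

set_option autoImplicit false
set_option linter.unusedSectionVars false

namespace Fermat.Agent.S56x.Flat.CSlotLocal

open Fermat.Agent.S56x.Hopf WithConv Fermat.Agent.S56x.Flat.CSlot
  Fermat.Agent.S56x.Flat.CharIntegral Fermat.Agent.S56x.Flat.CSlotSpan
open Fermat.Agent.S56x.Local.LocalInertia Fermat.Agent.S56x.Local.UnrIntOmega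

variable {p : ℕ} [Fact p.Prime]

local notation "Ω" => PadicAlgCl p
local notation "Ip" => Subtype (fun σ : PadicAlgCl p ≃ₐ[ℚ_[p]] PadicAlgCl p => σ ∈ localInertia' p)

variable {H : Type*} [CommRing H] [HopfAlgebra ℤ_[p] H] [Coalgebra.IsCocomm ℤ_[p] H]
  [Module.Free ℤ_[p] H] [Module.Finite ℤ_[p] H]

/-- **c-slot kill, complete side.** -/
theorem cslot_kill_local (hp2 : p ≠ 2)
    {M : Type*} [AddCommGroup M] [Finite M]
    (e : WithConv (H →ₐ[ℤ_[p]] Ω) ≃ M) (he : ∀ f g, e (f * g) = e f + e g)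
    (hMp : ∀ m : M, p • m = 0)
    (act : Ip → M → M)
    (hact : ∀ (t : Ip) (f g : WithConv (H →ₐ[ℤ_[p]] Ω)), (∀ h : H, g h = t • f h) →
      e g = act t (e f))
    (a : Ip → ℕ) (ha : ∀ (t : Ip) (ζ : Ω), ζ ^ p = 1 → t • ζ = ζ ^ a t)
    (M0 Mh M1 : AddSubgroup M) (hh1 : Mh ≤ M1)
    (h1 : ∀ (t : Ip), ∀ m ∈ Mh, act t m - m ∈ M0)
    (h2 : ∀ (t : Ip), ∀ m ∈ M1, act t m - a t • m ∈ Mh)
    (s : Ip) (hs : ∀ ζ : Ω, ζ ^ p = 1 → s • ζ = ζ) :
    ∀ m ∈ M1, act s m - m ∈ M0 :=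
  cslot_kill (OT := unrInt p) span_ptsFamily_eq_top algebraMap_unrInt_injective
    smul_algebraMap_unrInt exists_unrInt_mul_eq exists_unrInt_eq_algebraMap
    (Fact.out : p.Prime) hp2 natCast_ne_zero_omega
    (fun c hc => eq_zero_of_forall_pow_dvd c (by simpa using hc))
    (openBall p) exists_eq_p_mul_unrInt smul_sub_mem_openBall mul_mem_openBall
    inferInstance e he hMp act hact a ha M0 Mh M1 hh1 h1 h2 s hs

end Fermat.Agent.S56x.Flat.CSlotLocal
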