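import Mathlib
import Fermat.Agent.S56x.Flat.CSlotLocal

/-!
helper9 (P-S56, block (A)): the Prop `CSlotBridge.LocalKill p` of helper32 (note 1657), VERBATIM
binder list, proved through `Flat/CSlotLocal.cslot_kill_local` (helper94's character route
`Flat/CSlot.cslot_kill` + `Local/UnrIntOmega`).  Independent of helper73's
`Fontaine/UnrQuotKill.localKill_unrQuot` (same statement, Theorem Q route).
-/

set_option autoImplicit false
set_option linter.unusedSectionVars false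

namespace Fermat.Agent.S56x.Flat.CSlotLocalKill

open Fermat.Agent.S56x.Local.LocalInertia Fermat.Agent.S56x.Flat.CSlotLocal

/-- **`LocalKill p`** (helper32's `CSlotBridge.LocalKill`, verbatim), every odd `p`. -/
theorem localKill_cslot {p : ℕ} [Fact p.Prime] (hp2 : p ≠ 2)
    (Hp : Type) [CommRing Hp] [HopfAlgebra ℤ_[p] Hp] [Module.Finite ℤ_[p] Hp]
    [Module.Free ℤ_[p] Hp] [Coalgebra.IsCocomm ℤ_[p] Hp]
    (M : Type) [AddCommGroup M] [Finite M] (e : WithConv (Hp →ₐ[ℤ_[p]] PadicAlgCl p) ≃ M)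
    (he : ∀ f g, e (f * g) = e f + e g) (hMp : ∀ m : M, p • m = 0)
    (act : (PadicAlgCl p ≃ₐ[ℚ_[p]] PadicAlgCl p) → M → M)
    (hact : ∀ τ f g, (∀ h : Hp, g h = τ (f h)) → e g = act τ (e f))
    (a : (PadicAlgCl p ≃ₐ[ℚ_[p]] PadicAlgCl p) → ℕ)
    (ha : ∀ τ (ζ : PadicAlgCl p), ζ ^ p = 1 → τ ζ = ζ ^ a τ)
    (M0 Mh M1 : AddSubgroup M) (_h01 : M0 ≤ Mh) (hh1 : Mh ≤ M1)
    (_hM0 : ∀ τ, ∀ m ∈ M0, act τ m ∈ M0)
    (h1 : ∀ t ∈ localInertia' p, ∀ m ∈ Mh, act t m - m ∈ M0)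
    (h2 : ∀ t ∈ localInertia' p, ∀ m ∈ M1, act t m - a t • m ∈ Mh)
    (s : PadicAlgCl p ≃ₐ[ℚ_[p]] PadicAlgCl p) (hs : s ∈ localInertia' p)
    (hsζ : ∀ ζ : PadicAlgCl p, ζ ^ p = 1 → s ζ = ζ) : ∀ m ∈ M1, act s m - m ∈ M0 :=
  cslot_kill_local (H := Hp) hp2 e he hMp (fun t => act t.1)
    (fun t f g hfg => hact t.1 f g hfg) (fun t => a t.1) (fun t ζ hζ => ha t.1 ζ hζ)
    M0 Mh M1 hh1 (fun t m hm => h1 t.1 t.2 m hm) (fun t m hm => h2 t.1 t.2 m hm)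
    ⟨s, hs⟩ hsζ

end Fermat.Agent.S56x.Flat.CSlotLocalKill
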