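/-
P-S56, block (A) LOCAL FLAT, the `p = 3` block, arithmetic leaf 1 (owner: helper94).

PLACE-PRESERVING INERTIA LIFT.  `L/ℚ` Galois (think `L = ℚ̄`), `A` a valuation subring of `L`
over the prime `ℓ`, `M` a finite Galois subextension, `P` the prime of `𝓞 M` cut out by `A`.
Every element of the inertia group `Ideal.inertia Gal(M/ℚ) P` is the restriction of an element of
the inertia subgroup `A.inertiaSubgroupIn ℚ` OF THE SAME `A`.

This is the proof of `Lib.CFT.S14.Bridge.exists_inertia_lift_aux` (helper19) with the valuation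
subring given in advance instead of chosen (the frozen statement forgets which `A` it produces).
-/
import Mathlib
import Fermat.Agent.Lib.CFT.S14.Bridge

set_option autoImplicit false
set_option linter.unusedVariables false

open NumberField
open scoped Pointwise

namespace Fermat.Agent.S56x.Flat.InertiaLift

open Fermat.Agent.Lib Fermat.Agent.Lib.CFT.S14.Bridge

variable {L : Type*} [Field L] [Algebra ℚ L] [IsGalois ℚ L]

theorem exists_inertia_lift_of_place (M : IntermediateField ℚ L) [NumberField M] [IsGalois ℚ M]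
    (A : ValuationSubring L) {l : ℕ} (hlp : l.Prime) (hA : (l : L) ∈ A.nonunits)
    (P : Ideal (𝓞 M)) (hP : P.IsPrime)
    (hPA : ∀ x : 𝓞 M, algebraMap M L (x : M) ∈ A.nonunits ↔ x ∈ P)
    (σ : Gal(M/ℚ)) (hs : σ ∈ Ideal.inertia Gal(M/ℚ) P) :
    ∃ s ∈ A.inertiaSubgroupIn ℚ, AlgEquiv.restrictNormalHom M s = σ := by
  classical
  have hLalg : Algebra.IsAlgebraic ℚ L := inferInstance
  -- the embedding of `𝓞 M` into `L`
  let toL : 𝓞 M →+* L := (algebraMap M L).comp (algebraMap (𝓞 M) M)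
  have htoL : ∀ x : 𝓞 M, toL x = ((toIntegers M x : integralClosure ℤ L) : L) := fun x => rfl
  have hPA' : ∀ x : 𝓞 M, toL x ∈ A.nonunits ↔ x ∈ P := hPA
  -- relative set-up
  have hGalML : IsGalois M L := IsGalois.tower_top_intermediateField M
  have hIntML : Algebra.IsIntegral M L := inferInstance
  let _ := relAlgebra (L := L) M
  have := rel_smulComm (L := L) M
  have := rel_isInvariant (L := L) M
  let _ : TopologicalSpace (integralClosure ℤ L) := ⊥
  have : DiscreteTopology (integralClosure ℤ L) := ⟨rfl⟩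
  have := rel_continuousSMul (L := L) M
  let PP : Ideal (integralClosure ℤ L) := primeOfValuationSubring A
  have hPPprime : PP.IsPrime := primeOfValuationSubring_isPrime A
  have hPPunder : PP.under (𝓞 M) = P := by
    ext x
    rw [Ideal.under_def, Ideal.mem_comap]
    change toIntegers M x ∈ primeOfValuationSubring A ↔ _
    rw [mem_primeOfValuationSubring, ← htoL, hPA']
  -- lift `σ` and move the prime back
  obtain ⟨s0, hs0⟩ := AlgEquiv.restrictNormalHom_surjective L σ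
  have hs0M : ∀ (τ : L ≃ₐ[ℚ] L) (m : M), τ (algebraMap M L m)
      = algebraMap M L (AlgEquiv.restrictNormalHom M τ m) := fun τ m =>
    (AlgEquiv.restrictNormal_commutes τ M m).symm
  have hcoe_smul : ∀ (τ : Gal(M/ℚ)) (x : 𝓞 M), ((τ • x : 𝓞 M) : M) = τ (x : M) := fun τ x => rfl
  have hs' : ∀ x : 𝓞 M, σ • x - x ∈ P := fun x => hs x
  have hsinv : ∀ x : 𝓞 M, σ⁻¹ • x - x ∈ P := fun x =>
    (Subgroup.inv_mem _ hs : σ⁻¹ ∈ Ideal.inertia Gal(M/ℚ) P) x
  have htoL_smul : ∀ (τ : L ≃ₐ[ℚ] L) (x : 𝓞 M),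
      τ (toL x) = toL ((AlgEquiv.restrictNormalHom M τ) • x) := by
    intro τ x
    change τ (algebraMap M L (x : M)) =
      algebraMap M L (((AlgEquiv.restrictNormalHom M τ) • x : 𝓞 M) : M)
    rw [hs0M, hcoe_smul]
  let Q' : Ideal (integralClosure ℤ L) := s0 • PP
  have hQ'mem : ∀ b : integralClosure ℤ L, b ∈ Q' ↔ (s0⁻¹ (b : L)) ∈ A.nonunits := by
    intro b
    change b ∈ s0 • PP ↔ _
    rw [Ideal.mem_pointwise_smul_iff_inv_smul_mem]
    rfl
  have hQ'prime : Q'.IsPrime := by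
    change (s0 • PP).IsPrime
    rw [Ideal.pointwise_smul_eq_comap]
    infer_instance
  have hQ'under : Q'.under (𝓞 M) = P := by
    ext x
    rw [Ideal.under_def, Ideal.mem_comap]
    change toIntegers M x ∈ Q' ↔ _
    rw [hQ'mem, ← htoL, htoL_smul, hPA', map_inv, hs0]
    constructor
    · intro h
      have := P.sub_mem h (hsinv x)
      simpa using this
    · intro h
      have := P.add_mem (hsinv x) h
      simpa using this
  obtain ⟨t, ht⟩ := Algebra.IsInvariant.exists_smul_of_under_eq_of_profinite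
    (A := 𝓞 M) (G := L ≃ₐ[M] L) PP Q' (hPPunder.trans hQ'under.symm)
  have hres : ∀ g : L ≃ₐ[M] L, AlgEquiv.restrictNormalHom M (g.restrictScalars ℚ) = 1 := by
    intro g
    ext m
    have h1 := hs0M (g.restrictScalars ℚ) m
    change algebraMap M L (AlgEquiv.restrictNormalHom M (g.restrictScalars ℚ) m)
      = algebraMap M L m
    rw [← h1]
    exact g.commutes m
  have hPPmem : ∀ b : integralClosure ℤ L, b ∈ PP ↔ (b : L) ∈ A.nonunits := fun b => Iff.rfl
  let s1 : L ≃ₐ[ℚ] L := (t.restrictScalars ℚ)⁻¹ * s0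
  have hs1res : AlgEquiv.restrictNormalHom M s1 = σ := by
    change AlgEquiv.restrictNormalHom M ((t.restrictScalars ℚ)⁻¹ * s0) = σ
    rw [map_mul, map_inv, hres, hs0, inv_one, one_mul]
  have hs1 : ∀ b : integralClosure ℤ L, (s1 (b : L) ∈ A.nonunits ↔ (b : L) ∈ A.nonunits) := by
    intro b
    have h1 : (s0 • b) ∈ Q' ↔ (b : L) ∈ A.nonunits := by
      rw [hQ'mem]
      change s0⁻¹ (s0 (b : L)) ∈ A.nonunits ↔ _
      rw [show s0⁻¹ (s0 (b : L)) = (b : L) from s0.symm_apply_apply _]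
    rw [← h1, ht, Ideal.mem_pointwise_smul_iff_inv_smul_mem, hPPmem]
    rfl
  have hs1stab : s1 ∈ MulAction.stabilizer (L ≃ₐ[ℚ] L) PP := by
    rw [MulAction.mem_stabilizer_iff]
    ext b
    rw [Ideal.mem_pointwise_smul_iff_inv_smul_mem, hPPmem, hPPmem, ← hs1 (s1⁻¹ • b)]
    change s1 (s1⁻¹ (b : L)) ∈ A.nonunits ↔ _
    rw [show s1 (s1⁻¹ (b : L)) = (b : L) from s1.apply_symm_apply _]
  have hLO : PP.LiesOver P := ⟨hPPunder.symm⟩
  let e0 := Ideal.Quotient.stabilizerHom PP (PP.under ℤ) (L ≃ₐ[ℚ] L) ⟨s1, hs1stab⟩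
  have he0 : ∀ b : integralClosure ℤ L,
      e0 (Ideal.Quotient.mk PP b) = Ideal.Quotient.mk PP (s1 • b) := fun b => rfl
  let e : (integralClosure ℤ L ⧸ PP) ≃ₐ[𝓞 M ⧸ P] (integralClosure ℤ L ⧸ PP) :=
    AlgEquiv.ofRingEquiv (f := e0.toRingEquiv) (by
      intro x
      obtain ⟨x, rfl⟩ := Ideal.Quotient.mk_surjective x
      rw [Ideal.Quotient.algebraMap_mk_of_liesOver]
      change e0 (Ideal.Quotient.mk PP (toIntegers M x)) = Ideal.Quotient.mk PP (toIntegers M x)
      rw [he0, Ideal.Quotient.eq, hPPmem]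
      change s1 (toL x) - toL x ∈ A.nonunits
      rw [htoL_smul, hs1res, ← map_sub, hPA']
      exact hs' x)
  have he : ∀ b : integralClosure ℤ L,
      e (Ideal.Quotient.mk PP b) = Ideal.Quotient.mk PP (s1 • b) := fun b => rfl
  obtain ⟨r, hr⟩ := Ideal.Quotient.stabilizerHom_surjective_of_profinite
    (G := L ≃ₐ[M] L) P PP e
  have hrs : ∀ b : integralClosure ℤ L, (r : L ≃ₐ[M] L) (b : L) - s1 (b : L) ∈ A.nonunits := by
    intro b
    have h1 := DFunLike.congr_fun hr (Ideal.Quotient.mk PP b)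
    rw [he, Ideal.Quotient.stabilizerHom_apply, Ideal.Quotient.eq, hPPmem] at h1
    exact h1
  have hrinv : ∀ b : integralClosure ℤ L, (b : L) ∈ A.nonunits →
      (r : L ≃ₐ[M] L)⁻¹ (b : L) ∈ A.nonunits := by
    intro b hb
    have h1 : b ∈ (r : L ≃ₐ[M] L) • PP := by
      rw [MulAction.mem_stabilizer_iff.mp r.2]
      exact hb
    rw [Ideal.mem_pointwise_smul_iff_inv_smul_mem, hPPmem] at h1
    exact h1
  let s : L ≃ₐ[ℚ] L := ((r : L ≃ₐ[M] L).restrictScalars ℚ)⁻¹ * s1
  have hsres : AlgEquiv.restrictNormalHom M s = σ := by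
    change AlgEquiv.restrictNormalHom M (((r : L ≃ₐ[M] L).restrictScalars ℚ)⁻¹ * s1) = σ
    rw [map_mul, map_inv, hres, hs1res, inv_one, one_mul]
  have hsint : ∀ b : L, IsIntegral ℤ b → s b - b ∈ A.nonunits := by
    intro b hb
    have h1 := hrs ⟨b, hb⟩
    have h2 := hrinv (((r : L ≃ₐ[M] L) • (⟨b, hb⟩ : integralClosure ℤ L))
      - s1 • (⟨b, hb⟩ : integralClosure ℤ L)) h1
    have h3 : (r : L ≃ₐ[M] L)⁻¹ ((((r : L ≃ₐ[M] L) • (⟨b, hb⟩ : integralClosure ℤ L))
      - s1 • (⟨b, hb⟩ : integralClosure ℤ L) : integralClosure ℤ L) : L) = b - s b := by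
      change (r : L ≃ₐ[M] L)⁻¹ ((r : L ≃ₐ[M] L) b - s1 b) = b - s b
      rw [map_sub]
      congr 1
      exact (r : L ≃ₐ[M] L).symm_apply_apply b
    rw [h3] at h2
    have := A.nonunits.neg_mem h2
    simpa using this
  exact ⟨s, mem_inertiaSubgroupIn_of_integers A hlp hA s hsint, hsres⟩

end Fermat.Agent.S56x.Flat.InertiaLift
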